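import Fermat.Agent.ORD.Fin.Interface
import Fermat.Agent.RED.Norm

/-!
# ORD / Fin : (FN-ROOT) `z ^ (p ^ k) ≡ 1 mod 𝔪_A` implies `z ≡ 1 mod 𝔪_A`

Write `z = μ a / b` with `a, b` primitive `A`-integral series.  Whether `μ ∈ A` or `μ⁻¹ ∈ A`, absorb the
constant in `a` (resp. `b`), reduce the relation `z ^ (p ^ k) y₂ = y₁`, and use that the Frobenius of
the field `k((q))` is injective.
-/

set_option autoImplicit false

namespace Fermat.Agent.ORD.Fin

open ModularCurve
open Fermat.Agent.S24 (Qbar FF)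
open Fermat.Agent.ES.Mid

theorem ROOT_coeffMap_injective {R S : Type*} [CommRing R] [CommRing S] (f : R →+* S)
    (hf : Function.Injective f) : Function.Injective (coeffMap f) := by
  intro x y h
  ext n
  apply hf
  have := congrArg (fun s => HahnSeries.coeff s n) h
  simpa using this

theorem ROOT_coeffMap_C {R S : Type*} [CommRing R] [CommRing S] (f : R →+* S) (r : R) :
    coeffMap f (HahnSeries.C r) = HahnSeries.C (f r) := by
  rw [HahnSeries.C_apply, coeffMap_single, HahnSeries.C_apply]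

/-- `p` lies in the maximal ideal of `A`. -/
theorem ROOT_residue_natCast {A : ValuationSubring Qbar} {p : ℕ} (hA : A.LiesOverPrime p) :
    IsLocalRing.residue A (p : A) = 0 := by
  rw [IsLocalRing.residue_eq_zero_iff, IsLocalRing.mem_maximalIdeal, mem_nonunits_iff]
  intro hu
  have h1 : (p : Qbar) ∈ A.nonunits := hA
  rw [ValuationSubring.mem_nonunits_iff_exists_mem_maximalIdeal] at h1
  obtain ⟨ha, h2⟩ := h1
  rw [IsLocalRing.mem_maximalIdeal, mem_nonunits_iff] at h2
  apply h2
  have : (⟨(p : Qbar), ha⟩ : A) = (p : A) := Subtype.ext (by push_cast; rfl)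
  rw [this]
  exact hu

/-- the field `k((q))` has characteristic `p`. -/
theorem ROOT_charP {A : ValuationSubring Qbar} {p : ℕ} (hp : p.Prime) (hA : A.LiesOverPrime p) :
    CharP (LaurentSeries (IsLocalRing.ResidueField A)) p := by
  rw [CharP.charP_iff_prime_eq_zero hp]
  have h1 : (p : LaurentSeries (IsLocalRing.ResidueField A))
      = coeffMap (IsLocalRing.residue A) (HahnSeries.C (p : A)) := by
    rw [map_natCast, map_natCast]
  rw [h1, ROOT_coeffMap_C, ROOT_residue_natCast hA, map_zero]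

/-- injectivity of the iterated Frobenius. -/
theorem ROOT_eq_of_pow_eq {K : Type*} [Field K] {p : ℕ} (hp : p.Prime) [CharP K p] (k : ℕ)
    {x y : K} (h : x ^ (p ^ k) = y ^ (p ^ k)) : x = y := by
  have : Fact p.Prime := ⟨hp⟩
  have h1 : (x - y) ^ (p ^ k) = 0 := by rw [sub_pow_char_pow, h, sub_self]
  exact sub_eq_zero.1 (pow_eq_zero_iff (pow_ne_zero k hp.ne_zero) |>.1 h1)

theorem stmt_CongRoot : Stmt_CongRoot := by
  intro p hp A hA N _ z k hz
  obtain ⟨y₁, y₂, -, -, he, hr, hy2⟩ := hz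
  have hq : p ^ k ≠ 0 := pow_ne_zero k hp.ne_zero
  have hchar := ROOT_charP hp hA
  have hinj := ROOT_coeffMap_injective A.subtype Subtype.val_injective
  have hz0 : z ≠ 0 := by
    rintro rfl
    rw [zero_pow hq] at he
    have h1 : coeffMap A.subtype y₁ = 0 := by rw [← he]; simp
    have h2 : y₁ = 0 := hinj (by rw [h1, map_zero])
    apply hy2
    rw [← hr, h2, map_zero]
  have hz0' : (z : LaurentSeries Qbar) ≠ 0 := fun h => hz0 (Subtype.ext h)
  have he' : (z : LaurentSeries Qbar) ^ (p ^ k) * coeffMap A.subtype y₂ = coeffMap A.subtype y₁ := by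
    rw [← he]; rfl
  obtain ⟨μ, a, b, hμ, ha, hb, hra, hrb, hab⟩ := RED.NORM_strong N A z hz0
  change HahnSeries.C μ * coeffMap A.subtype a = coeffMap A.subtype b * (z : LaurentSeries Qbar)
    at hab
  change coeffMap A.subtype a ∈ modularFunctionFieldBar N at ha
  change coeffMap A.subtype b ∈ modularFunctionFieldBar N at hb
  change coeffMap (IsLocalRing.residue A) a ≠ 0 at hra
  change coeffMap (IsLocalRing.residue A) b ≠ 0 at hrb
  rcases A.mem_or_inv_mem μ with hm | hm
  · -- absorb `μ` in `a`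
    obtain ⟨m, rfl⟩ : ∃ m : A, (m : Qbar) = μ := ⟨⟨μ, hm⟩, rfl⟩
    have hC : (HahnSeries.C (m : Qbar) : LaurentSeries Qbar)
        = coeffMap A.subtype (HahnSeries.C m) := by rw [ROOT_coeffMap_C]; rfl
    have hab' : coeffMap A.subtype (HahnSeries.C m * a)
        = coeffMap A.subtype b * (z : LaurentSeries Qbar) := by rw [map_mul, ← hC, hab]
    have h1 : (HahnSeries.C m * a) ^ (p ^ k) * y₂ = b ^ (p ^ k) * y₁ := by
      apply hinj
      rw [map_mul, map_mul, map_pow, map_pow, hab', ← he']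
      ring
    have h2 := congrArg (coeffMap (IsLocalRing.residue A)) h1
    rw [map_mul, map_mul, map_pow, map_pow, hr] at h2
    have h3 := ROOT_eq_of_pow_eq hp k (mul_right_cancel₀ hy2 h2)
    refine ⟨HahnSeries.C m * a, b, ?_, hb, ?_, h3, hrb⟩
    · rw [hab']
      exact mul_mem hb z.2
    · rw [hab', mul_comm]
  · -- absorb `μ⁻¹` in `b`
    obtain ⟨m, hm'⟩ : ∃ m : A, (m : Qbar) = μ⁻¹ := ⟨⟨μ⁻¹, hm⟩, rfl⟩
    have hC : (HahnSeries.C (μ⁻¹) : LaurentSeries Qbar)
        = coeffMap A.subtype (HahnSeries.C m) := by rw [ROOT_coeffMap_C, ← hm']; rfl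
    have hCC : (HahnSeries.C (μ⁻¹) : LaurentSeries Qbar) * HahnSeries.C μ = 1 := by
      rw [← map_mul, inv_mul_cancel₀ hμ, map_one]
    have hab' : coeffMap A.subtype (HahnSeries.C m * b) * (z : LaurentSeries Qbar)
        = coeffMap A.subtype a := by
      rw [map_mul, ← hC, mul_assoc, ← hab, ← mul_assoc, hCC, one_mul]
    have h1 : a ^ (p ^ k) * y₂ = (HahnSeries.C m * b) ^ (p ^ k) * y₁ := by
      apply hinj
      rw [map_mul, map_mul, map_pow, map_pow, ← hab', ← he']
      ring
    have h2 := congrArg (coeffMap (IsLocalRing.residue A)) h1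
    rw [map_mul, map_mul, map_pow, map_pow, hr] at h2
    have h3 := ROOT_eq_of_pow_eq hp k (mul_right_cancel₀ hy2 h2)
    refine ⟨a, HahnSeries.C m * b, ha, ?_, ?_, h3, ?_⟩
    · have h4 : coeffMap A.subtype (HahnSeries.C m * b)
          = coeffMap A.subtype a * (z : LaurentSeries Qbar)⁻¹ := by
        rw [← hab', mul_assoc, mul_inv_cancel₀ hz0', mul_one]
      rw [h4]
      exact mul_mem ha (inv_mem z.2)
    · rw [← hab', mul_comm]
    · rw [← h3]; exact hra

end Fermat.Agent.ORD.Fin
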