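import Fermat.Agent.ORD.Fin.Interface
import Fermat.Agent.BR.F.FinBR

/-!
# ORD / Fin, FN-G1 : the character form of `G1` (`Stmt_FG1`)
-/

set_option autoImplicit false
set_option linter.style.haveILetI false

namespace Fermat.Agent.ORD.Fin

open CongruenceSubgroup
open Fermat.Agent.S24 (Qbar FF)
open Fermat.Agent.ES.Mid Fermat.Agent.ES.Mid.GLUE
open Fermat.Agent.ES.RepGalois (eps IsCyc)
open Fermat.Agent.BR.F (AL InWinf ClassCong)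

/-- the cyclotomic character mod `p`. -/
theorem FG1_actsMu (p : ℕ) [Fact p.Prime] (s : GQ) : Dep.ActsMu p s (cy p s) := by
  intro ζ hζ
  exact ES.RepGalois.eps_spec p 1 s ζ (by rwa [pow_one])

/-- a primitive `p`-th root of unity. -/
theorem FG1_exists_zeta (p : ℕ) [NeZero p] : ∃ ζ : Qbarˣ, IsPrimitiveRoot ζ p := by
  obtain ⟨ζ₀, hζ₀⟩ := HasEnoughRootsOfUnity.exists_primitiveRoot Qbar p
  obtain ⟨ζ, rfl⟩ := hζ₀.isUnit (NeZero.ne _)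
  exact ⟨ζ, IsPrimitiveRoot.coe_units_iff.mp hζ₀⟩

theorem stmt_FG1 (h : BR.F.ESHyp) (hG : NM.Stmt_G1) (hUS : Stmt_HeckeUS) (hAB : Stmt_ALBridge)
    (hj : BR.F.Stmt_AL_j) (hkum : BR.F.Stmt_AL_kum) (htr : BR.F.Stmt_AL_trace)
    (hIW : NM.Stmt_InWOfCong) : Stmt_FG1 := by
  intro p _ hp2 N _ hpN hp2N X A hA' χ hχ hW1 hW2 hY hT' s hs
  obtain ⟨hMul, hInv, hPow, hUn, hRed, hA, hB, hE, hF, hT, hH, hJ, hK, hL, hM⟩ := h
  have hp : p.Prime := Fact.out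
  obtain ⟨M, rfl⟩ : ∃ M, N = M * p := by
    obtain ⟨M, hM⟩ := hpN
    exact ⟨M, by rw [hM, mul_comm]⟩
  have hM0 : M ≠ 0 := by
    rintro rfl
    exact NeZero.ne (0 * p) (zero_mul p)
  haveI : NeZero M := ⟨hM0⟩
  haveI : NeZero p := ⟨hp.ne_zero⟩
  have hpM : ¬ p ∣ M := fun ⟨k, hk⟩ => hp2N ⟨k, by rw [hk]; ring⟩
  have hAL : BR.Inst.IsAL M p X.w := hAB M p hp X.w (hj (M * p) p X)
  obtain ⟨ζ, hζ⟩ := FG1_exists_zeta p
  obtain ⟨n, hn1, hn2⟩ := hUS (M * p) p hp (Dvd.intro_left M rfl) ζ hζ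
  obtain ⟨u, hu, hc⟩ := hW1
  obtain ⟨u', hu', hc'⟩ := hW2
  have hχ' : IsPE (X.chr χ) := BR.F.XB.isPE_chr htr X hχ
  have hdu : IsDiv (M * p) (p ^ 1) u := hB _ _ u χ hu hχ
  have hdu' : IsDiv (M * p) (p ^ 1) u' := hB _ _ u' _ hu' hχ'
  have hdup : IsDiv (M * p) p u := by rwa [pow_one] at hdu
  have hWu : Kum (M * p) (p ^ 1) (X.w u) (X.chr χ) := hkum (M * p) p X (p ^ 1) u χ hu
  have hwu0 : X.w u ≠ 0 := (map_ne_zero_iff _ X.w.injective).2 hdu.1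
  -- `u`, `W u` lie in `W_∞`
  have hI1 : Dep.InW A (M * p) p u :=
    hIW A (M * p) p u ⟨1, one_ne_zero, by rwa [one_pow, mul_one]⟩
  have hI2 : Dep.InW A (M * p) p (X.w u) := by
    have h1 : Kum (M * p) (p ^ 1) (u' * (X.w u)⁻¹) 0 := by
      have := hMul _ _ _ _ _ _ hu' (hInv _ _ _ _ hWu)
      rwa [add_neg_cancel] at this
    obtain ⟨f, hf⟩ := hE _ _ _ h1
    have hf0 : f ≠ 0 := by
      rintro rfl
      rw [zero_pow (NeZero.ne (p ^ 1))] at hf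
      exact (mul_ne_zero hdu'.1 (inv_ne_zero hwu0)) hf.symm
    refine hIW A (M * p) p (X.w u) ⟨f, hf0, ?_⟩
    rw [pow_one] at hf
    rw [hf, mul_comm u', mul_inv_cancel_left₀ hwu0]
    exact hc'
  -- the two relations
  have hR1 : ∃ g : FF (M * p), u * n (X.w u) = g ^ p := by
    have h1 : Kum (M * p) (p ^ 1) (u * n (X.w u)) (Yc p X χ) :=
      hMul _ _ _ _ _ _ hu (hn2 (p ^ 1) _ _ hWu)
    rw [hY] at h1
    obtain ⟨f, hf⟩ := hE _ _ _ h1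
    exact ⟨f, by rw [← hf, pow_one]⟩
  have hR2 : ∃ g : FF (M * p), X.w u * n u = g ^ p := by
    have h1 : Kum (M * p) (p ^ 1) (X.w u * n u) (Tc p X χ) :=
      hMul _ _ _ _ _ _ hWu (hn2 (p ^ 1) _ _ hu)
    rw [hT'] at h1
    obtain ⟨f, hf⟩ := hE _ _ _ h1
    exact ⟨f, by rw [← hf, pow_one]⟩
  obtain ⟨g, hg⟩ := hG p hp hp2 A hA' M hpM X.w hAL ζ hζ n hn1 u hdup hI1 hI2 hR1 hR2 s hs
    (cy p s) (FG1_actsMu p s)
  have hg0 : g ≠ 0 := by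
    rintro rfl
    rw [zero_pow hp.ne_zero, mul_zero] at hg
    exact gal_ne_zero (M * p) s hdu.1 hg
  have h2 : Kum (M * p) (p ^ 1) (gal (M * p) s u) (cy p s • χ + 0) := by
    rw [hg]
    have h3 : Kum (M * p) (p ^ 1) (g ^ p) 0 := by
      have h4 := hPow (M * p) (p ^ 1) g hg0
      have h5 : g ^ p ^ 1 = g ^ p := by rw [pow_one]
      rwa [h5] at h4
    exact hMul _ _ _ _ _ _ (kum_pow hMul hPow hu (cy p s)) h3
  rw [add_zero] at h2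
  exact U hMul hInv hPow hUn hA hB hE s hχ hu h2

end Fermat.Agent.ORD.Fin
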