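import Fermat.Agent.ORD.Fin.Interface
import Fermat.Agent.BR.F.FinBR

/-!
# ORD / Fin, task FN-G2 : character form of `G2` (`Stmt_FG2`)
-/

set_option autoImplicit false

namespace Fermat.Agent.ORD.Fin

open CongruenceSubgroup
open Fermat.Agent.S24 (Qbar FF)
open Fermat.Agent.ES.Mid Fermat.Agent.ES.Mid.GLUE Fermat.Agent.ES.Mid.FIX
open Fermat.Agent.ES.RepGalois (eps IsCyc)
open Fermat.Agent.BR.F (AL InWinf ClassCong)

/-- the cyclotomic character. -/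
theorem FG2_actsMu (p : ℕ) [Fact p.Prime] (s : GQ) : Dep.ActsMu p s (cy p s) := by
  intro ζ hζ
  exact ES.RepGalois.eps_spec p 1 s ζ (by rw [pow_one]; exact hζ)

/-- iterates of `T = W + n`. -/
theorem FG2_iter (hMul : Stmt_KumMul) (hkum : BR.F.Stmt_AL_kum) {N : ℕ} [NeZero N] (p : ℕ)
    [Fact p.Prime] (X : AL N p) (m : ℕ) [NeZero m] (n : FF N → FF N)
    (hn : ∀ (u : FF N) (χ : Additive (Gamma0 N) →+ ZMod m),
      Kum N m u χ → Kum N m (n u) (tau N (pp p) (ZMod m) χ))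
    (z : FF N) (ψ : Additive (Gamma0 N) →+ ZMod m) (hz : Kum N m z ψ) (J : ℕ) :
    Kum N m ((fun z => X.w z * n z)^[J] z) ((Tc p X)^[J] ψ) := by
  induction J with
  | zero => exact hz
  | succ J ih =>
    rw [Function.iterate_succ_apply', Function.iterate_succ_apply']
    exact hMul N m _ _ _ _ (hkum N p X m _ _ ih) (hn _ _ ih)

theorem stmt_FG2 (h : BR.F.ESHyp) (hG : NM.Stmt_G2) (hUS : Stmt_HeckeUS) (hAB : Stmt_ALBridge)
    (hj : BR.F.Stmt_AL_j) (hkum : BR.F.Stmt_AL_kum) (htr : BR.F.Stmt_AL_trace)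
    (hIW : NM.Stmt_InWOfCong) : Stmt_FG2 := by
  obtain ⟨hMul, hInv, hPow, hUn, hRed, hA, hB, hE, hF, hT, hH, hJ, hK, hL, hM⟩ := h
  intro p hpF hp2 N _ hpN hp2N X A hA' χ hχ h1 h2 hJ' s hs
  have hp : p.Prime := hpF.1
  have : NeZero p := ⟨hp.ne_zero⟩
  obtain ⟨M, rfl⟩ : ∃ M, N = M * p := by
    obtain ⟨M, hM⟩ := hpN
    exact ⟨M, by rw [hM, mul_comm]⟩
  have hM0 : NeZero M := ⟨fun h0 => NeZero.ne (M * p) (by rw [h0, zero_mul])⟩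
  have hpM : ¬ p ∣ M := by
    rintro ⟨M', rfl⟩
    exact hp2N ⟨M', by ring⟩
  have hAL : BR.Inst.IsAL M p X.w := hAB M p hp X.w (hj (M * p) p X)
  obtain ⟨ζ₀, hζ₀⟩ := HasEnoughRootsOfUnity.exists_primitiveRoot Qbar p
  obtain ⟨ζ, rfl⟩ := hζ₀.isUnit (NeZero.ne _)
  have hζ : IsPrimitiveRoot ζ p := IsPrimitiveRoot.coe_units_iff.mp hζ₀
  obtain ⟨n, hn1, hn2⟩ := hUS (M * p) p hp hpN ζ hζ
  have hn : ∀ (u : FF (M * p)) (χ : Additive (Gamma0 (M * p)) →+ ZMod (p ^ 1)),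
      Kum (M * p) (p ^ 1) u χ → Kum (M * p) (p ^ 1) (n u) (tau (M * p) (pp p) (ZMod (p ^ 1)) χ) :=
    fun u χ hu => hn2 (p ^ 1) u χ hu
  obtain ⟨u, hu, hc⟩ := h1
  obtain ⟨u', hu', hc'⟩ := h2
  have hχw : IsPE (X.chr χ) := BR.F.XB.isPE_chr htr X hχ
  have hdu : IsDiv (M * p) (p ^ 1) u := hB _ _ u χ hu hχ
  have hdu' : IsDiv (M * p) (p ^ 1) u' := hB _ _ u' _ hu' hχw
  have hdup : IsDiv (M * p) p u := by rw [pow_one] at hdu; exact hdu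
  have hwu0 : X.w u ≠ 0 := (map_ne_zero_iff _ X.w.injective).2 hdu.1
  -- `u ∈ W_∞`
  have hI1 : Dep.InW A (M * p) p u :=
    hIW A (M * p) p u ⟨1, one_ne_zero, by rw [one_pow, mul_one]; exact hc⟩
  -- `W u ∈ W_∞`
  have hI2 : Dep.InW A (M * p) p (X.w u) := by
    have h3 : Kum (M * p) (p ^ 1) (u' * (X.w u)⁻¹) 0 := by
      have := hMul _ _ _ _ _ _ hu' (hInv _ _ _ _ (hkum (M * p) p X (p ^ 1) u χ hu))
      rwa [add_neg_cancel] at this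
    obtain ⟨f, hf⟩ := hE _ _ _ h3
    rw [pow_one] at hf
    have hf0 : f ≠ 0 := by
      rintro rfl
      rw [zero_pow hp.ne_zero] at hf
      exact (mul_ne_zero hdu'.1 (inv_ne_zero hwu0)) hf.symm
    refine hIW A (M * p) p _ ⟨f, hf0, ?_⟩
    rw [hf, mul_comm u', mul_inv_cancel_left₀ hwu0]
    exact hc'
  -- `z = u * n (W u)`
  have hz : Kum (M * p) (p ^ 1) (u * n (X.w u)) (Yc p X χ) :=
    hMul _ _ _ _ _ _ hu (hn _ _ (hkum (M * p) p X (p ^ 1) u χ hu))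
  have hY : IsPE (Yc p X χ) := isPE_add hχ (hT _ _ _ _ hχw)
  have hdz : IsDiv (M * p) (p ^ 1) (u * n (X.w u)) := hB _ _ _ _ hz hY
  have hz0 := hdz.1
  obtain ⟨J, hJ0, hTJ⟩ := hJ'
  have hit := FG2_iter hMul hkum p X (p ^ 1) n hn _ _ hz J
  rw [hTJ] at hit
  have hJg : ∃ g : FF (M * p), (fun z => X.w z * n z)^[J] (u * n (X.w u))
      = u * n (X.w u) * g ^ p := by
    have h3 := hMul _ _ _ _ _ _ hit (hInv _ _ _ _ hz)
    rw [add_neg_cancel] at h3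
    obtain ⟨f, hf⟩ := hE _ _ _ h3
    rw [pow_one] at hf
    refine ⟨f, ?_⟩
    rw [hf, mul_comm _ (u * n (X.w u))⁻¹, mul_inv_cancel_left₀ hz0]
  obtain ⟨g₀, hg₀⟩ := hJg
  obtain ⟨g, hg⟩ := hG p hp hp2 A hA' M hpM X.w hAL ζ hζ n hn1 u hdup hI1 hI2 ⟨J, g₀, hJ0, hg₀⟩
    s hs (cy p s) (FG2_actsMu p s)
  have hg0 : g ≠ 0 := by
    rintro rfl
    rw [zero_pow hp.ne_zero, mul_zero] at hg
    exact gal_ne_zero (M * p) s hz0 hg
  refine U hMul hInv hPow hUn hA hB hE s hY hz ?_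
  rw [hg]
  have h4 := hMul _ _ _ _ _ _ (kum_pow hMul hPow hz (cy p s)) (hPow (M * p) (p ^ 1) g hg0)
  have h5 : g ^ p ^ 1 = g ^ p := by rw [pow_one]
  rwa [add_zero, h5] at h4

end Fermat.Agent.ORD.Fin

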