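import Fermat.Agent.ORD.Fin.Interface
import Fermat.Agent.BR.F.FinBR

/-!
# ORD / Fin : (FN-G3) the character form of `NM.Stmt_G3`
-/

set_option autoImplicit false

namespace Fermat.Agent.ORD.Fin

open CongruenceSubgroup
open Fermat.Agent.S24 (Qbar FF)
open Fermat.Agent.ES.Mid Fermat.Agent.ES.Mid.GLUE
open Fermat.Agent.ES.RepGalois (eps IsCyc)
open Fermat.Agent.BR.F (AL InWinf ClassCong)

/-- a primitive `p`-th root of unity in `ℚ̄ˣ`. -/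
theorem FG3_exists_zeta (p : ℕ) (hp : 0 < p) : ∃ ζ : Qbarˣ, IsPrimitiveRoot ζ p := by
  obtain ⟨ζ0, hζ0⟩ := ES.RepGalois.exists_primitiveRoot p hp
  refine ⟨(hζ0.isUnit hp.ne').unit, ?_⟩
  rw [← IsPrimitiveRoot.coe_units_iff]
  exact hζ0

/-- two exponents describing the action on `μ_p` give the same multiple of a character. -/
theorem FG3_nsmul_eq {N : ℕ} (p : ℕ) [Fact p.Prime] (s : GQ) (c : ℕ) (hc : Dep.ActsMu p s c)
    (ψ : Additive (Gamma0 N) →+ ZMod (p ^ 1)) : c • ψ = cy p s • ψ := by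
  have hp : p.Prime := Fact.out
  have h1 : IsCyc (p ^ 1) s c := by
    intro ζ hζ
    rw [pow_one] at hζ
    exact hc ζ hζ
  have h2 : IsCyc (p ^ 1) s (cy p s) := ES.RepGalois.eps_spec p 1 s
  have h3 := IsCyc.modEq (pow_pos hp.pos 1) h1 h2
  have h4 : (c : ZMod (p ^ 1)) = (cy p s : ZMod (p ^ 1)) := (ZMod.natCast_eq_natCast_iff _ _ _).2 h3
  apply AddMonoidHom.ext
  intro γ
  rw [AddMonoidHom.nsmul_apply, AddMonoidHom.nsmul_apply, nsmul_eq_mul, nsmul_eq_mul, h4]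

theorem stmt_FG3 (h : BR.F.ESHyp) (hG : NM.Stmt_G3) (hUS : Stmt_HeckeUS) (hAB : Stmt_ALBridge)
    (hj : BR.F.Stmt_AL_j) (hkum : BR.F.Stmt_AL_kum) (htr : BR.F.Stmt_AL_trace)
    (hIW : NM.Stmt_InWOfCong) : Stmt_FG3 := by
  intro p _ hp2 N _ hpN hp2N X A hA χ hχ hW1 hW2 hT hI
  obtain ⟨hMul, hInv, hPow, hUn, hRed, hA', hB, hE, hF, hTau, hH, hJ, hK, hL, hM⟩ := h
  have hp : p.Prime := Fact.out
  obtain ⟨M, rfl⟩ : ∃ M, N = M * p := ⟨N / p, (Nat.div_mul_cancel hpN).symm⟩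
  have hM0 : M ≠ 0 := by
    rintro rfl
    exact (NeZero.ne (0 * p)) (zero_mul p)
  have : NeZero M := ⟨hM0⟩
  have : NeZero p := ⟨hp.ne_zero⟩
  have hpM : ¬ p ∣ M := by
    intro hd
    apply hp2N
    rw [pow_two]
    exact Nat.mul_dvd_mul hd dvd_rfl
  have hAL : BR.Inst.IsAL M p X.w := hAB M p hp X.w (hj (M * p) p X)
  obtain ⟨ζ, hζ⟩ := FG3_exists_zeta p hp.pos
  obtain ⟨n, hn1, hn2⟩ := hUS (M * p) p hp hpN ζ hζ
  have hWW : ∀ (σ : GQ) {χ : Additive (Gamma0 (M * p)) →+ ZMod (p ^ 1)}, IsPE χ →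
      ∀ {u : FF (M * p)}, Kum (M * p) (p ^ 1) u χ →
        IsPE (act (M * p) (p ^ 1) σ χ) ∧ Kum (M * p) (p ^ 1) (gal (M * p) σ u)
          (act (M * p) (p ^ 1) σ χ) :=
    fun σ _ hχ _ hu => W hMul hInv hPow hA' hB hE σ hχ hu
  obtain ⟨x, hx, hcx⟩ := hW1
  obtain ⟨x', hx', hcx'⟩ := hW2
  have hχ' : IsPE (X.chr χ) := BR.F.XB.isPE_chr htr X hχ
  have hdx : IsDiv (M * p) (p ^ 1) x := hB _ _ x χ hx hχ
  have hdx' : IsDiv (M * p) (p ^ 1) x' := hB _ _ x' _ hx' hχ'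
  have hwx0 : X.w x ≠ 0 := (map_ne_zero_iff _ X.w.injective).2 hdx.1
  -- `x`, `W x` lie in `W_∞`
  have hIx : Dep.InW A (M * p) p x := by
    refine hIW A (M * p) p x ⟨1, one_ne_zero, ?_⟩
    rwa [one_pow, mul_one]
  have hIwx : Dep.InW A (M * p) p (X.w x) := by
    have h1 : Kum (M * p) (p ^ 1) (x' * (X.w x)⁻¹) 0 := by
      have := hMul _ _ _ _ _ _ hx' (hInv _ _ _ _ (hkum (M * p) p X (p ^ 1) x χ hx))
      rwa [add_neg_cancel] at this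
    obtain ⟨f, hf⟩ := hE _ _ _ h1
    have hf0 : f ≠ 0 := by
      rintro rfl
      rw [zero_pow (NeZero.ne (p ^ 1))] at hf
      exact (mul_ne_zero hdx'.1 (inv_ne_zero hwx0)) hf.symm
    refine hIW A (M * p) p (X.w x) ⟨f, hf0, ?_⟩
    rw [pow_one] at hf
    rw [hf, mul_comm x', mul_inv_cancel_left₀ hwx0]
    exact hcx'
  -- the element `z`
  have hz : Kum (M * p) (p ^ 1) (x * n (X.w x)) (Yc p X χ) :=
    hMul _ _ _ _ _ _ hx (hn2 (p ^ 1) _ _ (hkum (M * p) p X (p ^ 1) x χ hx))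
  have hψ : IsPE (Yc p X χ) := isPE_add hχ (hTau _ (pp p) _ _ hχ')
  have hdz : IsDiv (M * p) (p ^ 1) (x * n (X.w x)) := hB _ _ _ _ hz hψ
  have hz0 := hdz.1
  have hTz : ∃ g : FF (M * p), X.w (x * n (X.w x)) * n (x * n (X.w x)) = g ^ p := by
    have h1 : Kum (M * p) (p ^ 1) (X.w (x * n (X.w x)) * n (x * n (X.w x))) (Tc p X (Yc p X χ)) :=
      hMul _ _ _ _ _ _ (hkum (M * p) p X (p ^ 1) _ _ hz) (hn2 (p ^ 1) _ _ hz)
    rw [hT] at h1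
    obtain ⟨g, hg⟩ := hE _ _ _ h1
    rw [pow_one] at hg
    exact ⟨g, hg.symm⟩
  have hIz : ∀ s ∈ A.inertiaSubgroupIn ℚ, ∀ c : ℕ, Dep.ActsMu p s c →
      ∃ g : FF (M * p), gal (M * p) s (x * n (X.w x)) = (x * n (X.w x)) ^ c * g ^ p := by
    intro s hs c hc
    have h1 := (hWW s hψ hz).2
    rw [hI s hs, ← FG3_nsmul_eq p s c hc] at h1
    have h2 := hMul _ _ _ _ _ _ h1 (hInv _ _ _ _ (kum_pow hMul hPow hz c))
    rw [add_neg_cancel] at h2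
    obtain ⟨g, hg⟩ := hE _ _ _ h2
    rw [pow_one] at hg
    refine ⟨g, ?_⟩
    rw [hg, mul_comm (gal (M * p) s _), mul_inv_cancel_left₀ (pow_ne_zero _ hz0)]
  have hdx1 : IsDiv (M * p) p x := by
    have := hdx
    rwa [pow_one] at this
  obtain ⟨g, hg⟩ := hG p hp hp2 A hA M hpM X.w hAL ζ hζ n hn1 x hdx1 hIx hIwx hTz hIz
  have h0 : Kum (M * p) (p ^ 1) (x * n (X.w x)) 0 :=
    kum_zero_of_pow hPow hz0 (by rw [pow_one]; exact hg.symm)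
  exact hUn _ _ _ _ _ hz h0

end Fermat.Agent.ORD.Fin
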