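import Fermat.Agent.ORD.Fin.Interface
import Fermat.Agent.BR.F.UGlue
import Fermat.Agent.BR.F.UFormal
import Fermat.Agent.BR.F.UAnalytic
import Fermat.Agent.BR.GMid.Bridge

/-!
# ORD / Fin : `N_p` with its `q`-expansion (`Stmt_HeckeUS`) and the Atkin-Lehner bridge
(`Stmt_ALBridge`) (task FN-US; helper86)
-/

set_option autoImplicit false

namespace Fermat.Agent.ORD.Fin

open CongruenceSubgroup
open Fermat.Agent.S24 (Qbar FF)
open Fermat.Agent.ES.Mid
open Fermat.Agent.BR.F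

/-- **(FN-US)** -/
theorem stmt_HeckeUS : Stmt_HeckeUS := by
  intro N _ p _ hp hpN ζ hζ
  have hmem := U3.formalU_mem U2.ua_char U2.ua_mdiff U2.ua_rep U2.ua_growth U1.uf_mul N
    (⟨p, hp⟩ : Nat.Primes) hpN ζ hζ
  refine ⟨U3.mkU hmem, fun u => rfl, fun m _ u χ h => ?_⟩
  exact U3.kum_mkU U2.ua_char U2.ua_mdiff U2.ua_rep U2.ua_growth U1.uf_mul N
    (⟨p, hp⟩ : Nat.Primes) hpN ζ hζ hmem m u χ h

/-- **(bridge)** -/
theorem stmt_ALBridge : Stmt_ALBridge := by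
  intro M r _ hr w hw
  exact BR.GMid.isAL_of_isAL hr hw

end Fermat.Agent.ORD.Fin
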