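import Fermat.Agent.ORD.Fin.Interface

/-!
# ORD / Fin / L : from the finite level package `Stmt_OrdFin` to `TR.Stmt_ESOrd`
-/

set_option autoImplicit false
set_option linter.unusedSectionVars false

namespace Fermat.Agent.ORD.Fin.L

open CongruenceSubgroup CuspForm
open Fermat.Agent.S24 (Qbar FF)
open Fermat.Agent.ES.Mid (IsPE GQ tau redChar)
open Fermat.Agent.ES.Coh
open Fermat.Agent.ES.RepGalois (eps)
open Fermat.Agent.BR.F (AL InWinf Stmt_AL_trace Stmt_AL_tau Stmt_AL_chr_invol)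
open Fermat.Agent.BR.F.L (wLam redP_wLam wLam_comm_ThetaLam tauLam_comm_ThetaLam redP_sub')

/-! ### abstract case analysis -/

/-- an injective additive self-map of a finite subgroup has finite order. -/
theorem cases_abs {𝕏 : Type*} [AddCommGroup 𝕏] [Finite 𝕏] (Yb : AddSubgroup 𝕏) (T : 𝕏 → 𝕏)
    (hT : ∀ a ∈ Yb, T a ∈ Yb) (hinj : ∀ a ∈ Yb, ∀ b ∈ Yb, T a = T b → a = b) :
    ∃ J : ℕ, 0 < J ∧ ∀ a ∈ Yb, T^[J] a = a := by
  let f : Yb → Yb := fun a => ⟨T a.1, hT a.1 a.2⟩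
  have hf : Function.Injective f := fun a b h =>
    Subtype.ext (hinj a.1 a.2 b.1 b.2 (congrArg Subtype.val h))
  have hb : Function.Bijective f := Finite.injective_iff_bijective.mp hf
  let e : Equiv.Perm Yb := Equiv.ofBijective f hb
  obtain ⟨J, hJ, hJe⟩ := (isOfFinOrder_of_finite e).exists_pow_eq_one
  refine ⟨J, hJ, fun a ha => ?_⟩
  have h1 : ∀ (k : ℕ) (x : Yb), ((e ^ k) x : 𝕏) = T^[k] x.1 := by
    intro k
    induction k with
    | zero => intro x; rfl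
    | succ k ih =>
      intro x
      rw [pow_succ', Equiv.Perm.mul_apply, Function.iterate_succ_apply']
      show T ((e ^ k) x : 𝕏) = _
      rw [ih]
  have := h1 J ⟨a, ha⟩
  rw [hJe] at this
  exact this.symm

variable {N : ℕ} [NeZero N] (p : ℕ) [hp : Fact p.Prime]

/-! ### `p Λ` -/

/-- divisibility by `p` in `Λ`. -/
def IsP (v : Lam N p) : Prop := ∃ v' : Lam N p, v = (p : ℤ_[p]) • v'

theorem redP_one_of_isP {v : Lam N p} (h : IsP p v) : redP p 1 v.1 = 0 := by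
  obtain ⟨v', rfl⟩ := h
  ext x
  show PadicInt.toZModPow 1 ((p : ℤ_[p]) * v'.1 x) = 0
  rw [map_mul, map_natCast]
  have : ((p : ℕ) : ZMod (p ^ 1)) = 0 := by
    rw [ZMod.natCast_eq_zero_iff, pow_one]
  rw [this, zero_mul]

theorem isP_of_redP_one {v : Lam N p} (h : redP p 1 v.1 = 0) : IsP p v := by
  have h1 : ∀ x, ∃ d : ℤ_[p], v.1 x = (p : ℤ_[p]) * d := by
    intro x
    have h2 : PadicInt.toZModPow 1 (v.1 x) = 0 := DFunLike.congr_fun h x
    obtain ⟨d, hd⟩ := exists_eq_pow_smul_of_redP_eq_zero p 1 _ h2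
    exact ⟨d, by rw [hd, pow_one]⟩
  choose d hd using h1
  have hp0 : (p : ℤ_[p]) ≠ 0 := Nat.cast_ne_zero.mpr hp.1.ne_zero
  let φ : Additive (Gamma0 N) →+ ℤ_[p] :=
    { toFun := d
      map_zero' := by
        have := hd 0
        rw [map_zero] at this
        exact (mul_eq_zero.mp this.symm).resolve_left hp0
      map_add' := fun a b => by
        apply mul_left_cancel₀ hp0
        rw [mul_add, ← hd, ← hd, ← hd, map_add] }
  refine ⟨⟨φ, fun γ hγ => ?_⟩, Subtype.ext (AddMonoidHom.ext fun x => hd x)⟩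
  have := v.2 γ hγ
  rw [hd] at this
  exact (mul_eq_zero.mp this).resolve_left hp0

theorem isP_iff {v : Lam N p} : IsP p v ↔ redP p 1 v.1 = 0 :=
  ⟨redP_one_of_isP p, isP_of_redP_one p⟩

theorem isP_map (f : Module.End ℤ_[p] (Lam N p)) {v : Lam N p} (h : IsP p v) : IsP p (f v) := by
  obtain ⟨v', rfl⟩ := h
  exact ⟨f v', map_smul f _ _⟩

theorem isP_iff_mem (v : Lam N p) :
    IsP p v ↔ v ∈ (Ideal.span {(p : ℤ_[p])}) • (⊤ : Submodule ℤ_[p] (Lam N p)) := by
  rw [Submodule.ideal_span_singleton_smul, Submodule.mem_smul_pointwise_iff_exists]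
  constructor
  · rintro ⟨v', rfl⟩
    exact ⟨v', Submodule.mem_top, rfl⟩
  · rintro ⟨v', -, rfl⟩
    exact ⟨v', rfl⟩


/-- `p Λ`. -/
noncomputable def pLam : Submodule ℤ_[p] (Lam N p) :=
  (Ideal.span {(p : ℤ_[p])}) • (⊤ : Submodule ℤ_[p] (Lam N p))

theorem mem_pLam {v : Lam N p} : v ∈ pLam (N := N) p ↔ redP p 1 v.1 = 0 :=
  ((isP_iff_mem p v).symm).trans (isP_iff p)

theorem pLam_map (f : Module.End ℤ_[p] (Lam N p)) {v : Lam N p} (h : v ∈ pLam (N := N) p) :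
    f v ∈ pLam (N := N) p :=
  (isP_iff_mem p _).1 (isP_map p f ((isP_iff_mem p _).2 h))

/-! ### the operators -/

section Ops

variable (htr : Stmt_AL_trace) (X : AL N p)

/-- `1 + n w`. -/
noncomputable def yL : Module.End ℤ_[p] (Lam N p) := 1 + tauLam p (pp p) * wLam p htr X

/-- `w + n`. -/
noncomputable def TL : Module.End ℤ_[p] (Lam N p) := wLam p htr X + tauLam p (pp p)

theorem redP_yL (v : Lam N p) (k : ℕ) : redP p k (yL p htr X v).1 = Yc p X (redP p k v.1) := by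
  show redP p k (v.1 + (tauLam p (pp p) (wLam p htr X v)).1) = _
  rw [redP_add, redP_tauLam, redP_wLam]
  rfl

theorem redP_TL (v : Lam N p) (k : ℕ) : redP p k (TL p htr X v).1 = Tc p X (redP p k v.1) := by
  show redP p k ((wLam p htr X v).1 + (tauLam p (pp p) v).1) = _
  rw [redP_add, redP_tauLam, redP_wLam]
  rfl

theorem wLam_sq (hinv : Stmt_AL_chr_invol) : wLam p htr X * wLam p htr X = 1 :=
  LinearMap.ext fun v => Subtype.ext (hinv N p X ℤ_[p] v.1)

theorem TL_eq (hinv : Stmt_AL_chr_invol) : TL p htr X = yL p htr X * wLam p htr X := by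
  rw [yL, add_mul, one_mul, mul_assoc, wLam_sq p htr X hinv, mul_one, TL]

end Ops


/-! ### `Λ_∞` at a fixed level and saturation -/

section Main

variable {D : FinLevelData N} {X : AL N p} {A : ValuationSubring Qbar}

theorem winf_nsmul (B : OrdFin D p X A) (m : ℕ) [NeZero m]
    (χ : Additive (Gamma0 N) →+ ZMod m) (h : InWinf N m A χ) (k : ℕ) : InWinf N m A (k • χ) := by
  induction k with
  | zero => rw [zero_smul]; exact B.winf_zero m
  | succ k ih => rw [succ_nsmul]; exact B.winf_add m _ _ ih h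

/-- level `j` part of `Λ_∞`. -/
def lamK (B : OrdFin D p X A) (j : ℕ) : Submodule ℤ_[p] (Lam N p) where
  carrier := {χ | InWinf N (p ^ j) A (redP p j χ.1)}
  zero_mem' := by
    have : redP p j (0 : Lam N p).1 = 0 := by ext x; simp [redP_apply]
    show InWinf N (p ^ j) A (redP p j (0 : Lam N p).1)
    rw [this]; exact B.winf_zero _
  add_mem' := fun {a b} ha hb => by
    show InWinf N (p ^ j) A (redP p j (a.1 + b.1))
    rw [redP_add]; exact B.winf_add _ _ _ ha hb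
  smul_mem' := fun c a ha => by
    show InWinf N (p ^ j) A (redP p j (c • a.1))
    rw [redP_smul_eq_nsmul]; exact winf_nsmul p B _ _ ha _

variable (D A) in
/-- `I_aug Λ`. -/
noncomputable def augL : Submodule ℤ_[p] (Lam N p) :=
  Submodule.span ℤ_[p] {x | ∃ s ∈ A.inertiaSubgroupIn ℚ, ∃ w : Lam N p, x = rho D p s w - w}

theorem augL_le (B : OrdFin D p X A) (j : ℕ) : augL p D A ≤ lamK p B j := by
  apply Submodule.span_le.2
  rintro x ⟨s, hs, w, rfl⟩
  show InWinf N (p ^ j) A (redP p j (rho D p s w - w).1)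
  rw [redP_sub', redP_rho]
  exact B.inertia _ s hs _ (isPE_redP p w j)

theorem sat_lam (B : OrdFin D p X A) (v : Lam N p) (k : ℕ)
    (h : (p : ℤ_[p]) ^ k • v ∈ augL p D A) : InWinf N (p ^ 1) A (redP p 1 v.1) := by
  have h1 : InWinf N (p ^ (k + 1)) A (redP p (k + 1) ((p : ℤ_[p]) ^ k • v).1) :=
    augL_le p B (k + 1) h
  have h2 : ((p : ℤ_[p]) ^ k • v).1 = (p ^ k) • v.1 := by
    rw [← Nat.cast_pow, Nat.cast_smul_eq_nsmul]; rfl
  rw [h2, redP_nsmul] at h1
  have h3 := B.sat k (pow_dvd_pow p (Nat.succ_le_succ (Nat.zero_le k))) _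
    (isPE_redP p v (k + 1)) h1
  rwa [redChar_redP p 1 (k + 1) (Nat.succ_le_succ (Nat.zero_le k))] at h3

theorem key_iff (z : Lam N p) (s : GQ) :
    rho D p s z - ((eps p s : ℤ_[p]ˣ) : ℤ_[p]) • z ∈ pLam (N := N) p ↔
      D.act (p ^ 1) s (redP p 1 z.1) = cy p s • redP p 1 z.1 := by
  rw [mem_pLam, redP_sub', redP_rho]
  have h : redP p 1 ((((eps p s : ℤ_[p]ˣ) : ℤ_[p]) • z).1) = cy p s • redP p 1 z.1 :=
    redP_smul_eq_nsmul p 1 _ z.1
  rw [h, sub_eq_zero]

theorem rho_comm_n (B : OrdFin D p X A) (g : GQ) :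
    rho D p g * tauLam p (pp p) = tauLam p (pp p) * rho D p g := by
  refine LinearMap.ext fun χ => lam_ext p fun n => ?_
  show redP p n (rho D p g (tauLam p (pp p) χ)).1 = redP p n (tauLam p (pp p) (rho D p g χ)).1
  rw [redP_rho, redP_tauLam, redP_tauLam, redP_rho]
  exact (B.tau_act _ g _ (isPE_redP p χ n)).symm

theorem rho_comm_w (htr : Stmt_AL_trace) (B : OrdFin D p X A) (g : GQ) :
    rho D p g * wLam p htr X = wLam p htr X * rho D p g := by
  refine LinearMap.ext fun χ => lam_ext p fun n => ?_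
  show redP p n (rho D p g (wLam p htr X χ)).1 = redP p n (wLam p htr X (rho D p g χ)).1
  rw [redP_rho, redP_wLam, redP_wLam, redP_rho]
  exact (B.chr_act _ g _ (isPE_redP p χ n)).symm

end Main

/-! ### linear algebra -/

theorem comm_yL (htr : Stmt_AL_trace) (X : AL N p) (f : Module.End ℤ_[p] (Lam N p))
    (hn : f * tauLam p (pp p) = tauLam p (pp p) * f)
    (hw : f * wLam p htr X = wLam p htr X * f) : f * yL p htr X = yL p htr X * f := by
  rw [yL, mul_add, add_mul, mul_one, one_mul, ← mul_assoc, hn, mul_assoc, hw, mul_assoc]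

theorem comm_TL (htr : Stmt_AL_trace) (X : AL N p) (f : Module.End ℤ_[p] (Lam N p))
    (hn : f * tauLam p (pp p) = tauLam p (pp p) * f)
    (hw : f * wLam p htr X = wLam p htr X * f) : f * TL p htr X = TL p htr X * f := by
  rw [TL, mul_add, add_mul, hn, hw]

theorem not_le_pLam (M : Submodule ℤ_[p] (Lam N p)) (hM0 : M ≠ ⊥)
    (hsat : ∀ v : Lam N p, (p : ℤ_[p]) • v ∈ M → v ∈ M) : ¬ M ≤ pLam (N := N) p := by
  intro hle
  apply hM0
  rw [Submodule.eq_bot_iff]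
  have key : ∀ n : ℕ, ∀ v ∈ M, redP p n v.1 = 0 := by
    intro n
    induction n with
    | zero =>
      intro v _
      ext x
      have : Subsingleton (ZMod (p ^ 0)) := by rw [pow_zero]; infer_instance
      exact Subsingleton.elim _ _
    | succ n ih =>
      intro v hv
      obtain ⟨v', rfl⟩ := (isP_iff_mem p v).2 (hle hv)
      have h1 := ih v' (hsat v' hv)
      ext x
      show PadicInt.toZModPow (n + 1) ((p : ℤ_[p]) * v'.1 x) = 0
      have h2 : PadicInt.toZModPow n (v'.1 x) = 0 := DFunLike.congr_fun h1 x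
      obtain ⟨d, hd⟩ := exists_eq_pow_smul_of_redP_eq_zero p n _ h2
      rw [hd, ← mul_assoc, ← pow_succ', map_mul, map_pow, map_natCast]
      have h3 : ((p : ℕ) : ZMod (p ^ (n + 1))) ^ (n + 1) = 0 := by
        rw [← Nat.cast_pow, ZMod.natCast_self]
      rw [h3, zero_mul]
  intro v hv
  refine lam_ext p fun n => ?_
  rw [key n v hv]
  ext x
  simp [redP_apply]

theorem stab_sup (M : Submodule ℤ_[p] (Lam N p)) (f y : Module.End ℤ_[p] (Lam N p))
    (hfM : ∀ v ∈ M, f v ∈ M) (hc : f * y = y * f) :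
    ∀ z ∈ pLam (N := N) p ⊔ M.map y, f z ∈ pLam (N := N) p ⊔ M.map y := by
  intro z hz
  obtain ⟨a, ha, b, hb, rfl⟩ := Submodule.mem_sup.1 hz
  obtain ⟨m, hm, rfl⟩ := Submodule.mem_map.1 hb
  rw [map_add]
  refine Submodule.add_mem_sup (pLam_map p f ha) ?_
  exact Submodule.mem_map.2 ⟨f m, hfM m hm, (LinearMap.congr_fun hc m).symm⟩

theorem chi_of_mem_sup (htr : Stmt_AL_trace) (X : AL N p) (M : Submodule ℤ_[p] (Lam N p))
    {z : Lam N p} (hz : z ∈ pLam (N := N) p ⊔ M.map (yL p htr X)) :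
    ∃ m ∈ M, redP p 1 z.1 = Yc p X (redP p 1 m.1) := by
  obtain ⟨a, ha, b, hb, rfl⟩ := Submodule.mem_sup.1 hz
  obtain ⟨m, hm, rfl⟩ := Submodule.mem_map.1 hb
  refine ⟨m, hm, ?_⟩
  show redP p 1 (a.1 + (yL p htr X m).1) = _
  rw [redP_add, (mem_pLam p).1 ha, zero_add, redP_yL]

theorem Tc_sub (X : AL N p) {m : ℕ} (a b : Additive (Gamma0 N) →+ ZMod m) :
    Tc p X (a - b) = Tc p X a - Tc p X b := by
  simp only [Tc, map_sub]
  abel


/-! ### the core -/

theorem core (htr : Stmt_AL_trace) (htau : Stmt_AL_tau) (hinv : Stmt_AL_chr_invol)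
    (hfin : Fermat.Agent.ES.Mid.Stmt_HomFinite) (hpN : p ∣ N) (S : Set ℕ)
    (hNS : ∀ q : ℕ, q.Prime → q ∣ N → q ∈ S)
    {D : FinLevelData N} {X : AL N p} {A : ValuationSubring Qbar} (B : OrdFin D p X A)
    (M : Submodule ℤ_[p] (Lam N p)) (hM0 : M ≠ ⊥)
    (hsat : ∀ v : Lam N p, (p : ℤ_[p]) • v ∈ M → v ∈ M)
    (hst : ∀ f : Module.End ℤ_[p] (Lam N p),
      (∀ x, f * ThetaLam N p S x = ThetaLam N p S x * f) → ∀ v ∈ M, f v ∈ M)
    (haug : ∀ v ∈ M, ∃ n : ℕ, (p : ℤ_[p]) ^ n • v ∈ augL p D A) :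
    ∃ Z : Submodule ℤ_[p] (Lam N p), Z ≤ M ∧ ¬ Z ≤ pLam (N := N) p ∧
      (∀ (g : GQ), ∀ z ∈ Z, rho D p g z ∈ Z) ∧ (∀ x, ∀ z ∈ Z, ThetaLam N p S x z ∈ Z) ∧
      ((∀ z ∈ Z, ∀ s ∈ A.inertiaSubgroupIn ℚ,
          rho D p s z - ((eps p s : ℤ_[p]ˣ) : ℤ_[p]) • z ∈ pLam (N := N) p) ∨
       (∀ z ∈ Z, (∀ s ∈ A.inertiaSubgroupIn ℚ,
          rho D p s z - ((eps p s : ℤ_[p]ˣ) : ℤ_[p]) • z ∈ pLam (N := N) p) →
            z ∈ pLam (N := N) p)) := by
  -- commutation with the Hecke algebra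
  have hnΘ : ∀ x, tauLam p (pp p) * ThetaLam N p S x = ThetaLam N p S x * tauLam p (pp p) :=
    fun x => tauLam_comm_ThetaLam p (pp p) hpN S x
  have hwΘ : ∀ x, wLam p htr X * ThetaLam N p S x = ThetaLam N p S x * wLam p htr X :=
    fun x => wLam_comm_ThetaLam p htr htau X S hNS x
  have hyΘ : ∀ x, yL p htr X * ThetaLam N p S x = ThetaLam N p S x * yL p htr X :=
    fun x => (comm_yL p htr X _ (hnΘ x).symm (hwΘ x).symm).symm
  have hρΘ : ∀ g x, rho D p g * ThetaLam N p S x = ThetaLam N p S x * rho D p g :=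
    fun g x => rho_comm_ThetaLam N p D S hNS g x
  have hΘΘ : ∀ y x, ThetaLam N p S y * ThetaLam N p S x = ThetaLam N p S x * ThetaLam N p S y :=
    fun y x => by rw [← map_mul, ← map_mul, mul_comm]
  -- stability of `M`
  have hwM : ∀ v ∈ M, wLam p htr X v ∈ M := hst _ hwΘ
  have hyM : ∀ v ∈ M, yL p htr X v ∈ M := hst _ hyΘ
  have hρM : ∀ g, ∀ v ∈ M, rho D p g v ∈ M := fun g => hst _ (hρΘ g)
  have hΘM : ∀ y, ∀ v ∈ M, ThetaLam N p S y v ∈ M := fun y => hst _ (hΘΘ y)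
  -- commutation with `y`, `T`
  have hρy : ∀ g, rho D p g * yL p htr X = yL p htr X * rho D p g :=
    fun g => comm_yL p htr X _ (rho_comm_n p B g) (rho_comm_w p htr B g)
  have hρT : ∀ g, rho D p g * TL p htr X = TL p htr X * rho D p g :=
    fun g => comm_TL p htr X _ (rho_comm_n p B g) (rho_comm_w p htr B g)
  have hΘy : ∀ x, ThetaLam N p S x * yL p htr X = yL p htr X * ThetaLam N p S x :=
    fun x => (hyΘ x).symm
  have hΘT : ∀ x, ThetaLam N p S x * TL p htr X = TL p htr X * ThetaLam N p S x :=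
    fun x => comm_TL p htr X _ (hnΘ x).symm (hwΘ x).symm
  -- `W_∞`
  have hW : ∀ v ∈ M, InWinf N (p ^ 1) A (redP p 1 v.1) := by
    intro v hv
    obtain ⟨n, hn⟩ := haug v hv
    exact sat_lam p B v n hn
  have hW' : ∀ v ∈ M, InWinf N (p ^ 1) A (X.chr (redP p 1 v.1)) := by
    intro v hv
    rw [← redP_wLam p htr X v 1]
    exact hW _ (hwM v hv)
  have hTY : ∀ v : Lam N p, Tc p X (redP p 1 v.1) = Yc p X (redP p 1 (wLam p htr X v).1) := by
    intro v
    rw [← redP_TL p htr X v 1, TL_eq p htr X hinv, ← redP_yL p htr X _ 1]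
    rfl
  by_cases h1 : ∀ v ∈ M, Yc p X (redP p 1 v.1) = 0
  · -- case 1
    refine ⟨M, le_rfl, not_le_pLam p M hM0 hsat, hρM, hΘM, Or.inl ?_⟩
    intro z hz s hs
    rw [key_iff]
    refine B.g1 _ (isPE_redP p z 1) (hW z hz) (hW' z hz) (h1 z hz) ?_ s hs
    rw [hTY]
    exact h1 _ (hwM z hz)
  push Not at h1
  obtain ⟨v0, hv0, hv0'⟩ := h1
  by_cases h2 : ∃ x0 ∈ M, Yc p X (redP p 1 x0.1) ≠ 0 ∧ Tc p X (Yc p X (redP p 1 x0.1)) = 0
  · -- case 2
    obtain ⟨x0, hx0, hx0', hx0''⟩ := h2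
    refine ⟨M ⊓ (pLam (N := N) p ⊔ M.map (yL p htr X)) ⊓ (pLam (N := N) p).comap (TL p htr X),
      inf_le_left.trans inf_le_left, ?_, ?_, ?_, Or.inr ?_⟩
    · intro hle
      have hmem : yL p htr X x0 ∈ M ⊓ (pLam (N := N) p ⊔ M.map (yL p htr X)) ⊓
          (pLam (N := N) p).comap (TL p htr X) := by
        refine ⟨⟨hyM x0 hx0, Submodule.mem_sup_right (Submodule.mem_map_of_mem hx0)⟩, ?_⟩
        show TL p htr X (yL p htr X x0) ∈ pLam (N := N) p
        rw [mem_pLam, redP_TL, redP_yL]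
        exact hx0''
      have := (mem_pLam p).1 (hle hmem)
      rw [redP_yL] at this
      exact hx0' this
    · rintro g z ⟨⟨hz1, hz2⟩, hz3⟩
      refine ⟨⟨hρM g z hz1, stab_sup p M _ _ (hρM g) (hρy g) z hz2⟩, ?_⟩
      show TL p htr X (rho D p g z) ∈ pLam (N := N) p
      have : TL p htr X (rho D p g z) = rho D p g (TL p htr X z) :=
        (LinearMap.congr_fun (hρT g) z).symm
      rw [this]
      exact pLam_map p _ hz3
    · rintro x z ⟨⟨hz1, hz2⟩, hz3⟩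
      refine ⟨⟨hΘM x z hz1, stab_sup p M _ _ (hΘM x) (hΘy x) z hz2⟩, ?_⟩
      show TL p htr X (ThetaLam N p S x z) ∈ pLam (N := N) p
      have : TL p htr X (ThetaLam N p S x z) = ThetaLam N p S x (TL p htr X z) :=
        (LinearMap.congr_fun (hΘT x) z).symm
      rw [this]
      exact pLam_map p _ hz3
    · rintro z ⟨⟨_, hz2⟩, hz3⟩ hs
      obtain ⟨m, hm, hzm⟩ := chi_of_mem_sup p htr X M hz2
      have hz3' : Tc p X (Yc p X (redP p 1 m.1)) = 0 := by
        rw [← hzm, ← redP_TL p htr X z 1]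
        exact (mem_pLam p).1 hz3
      rw [mem_pLam, hzm]
      refine B.g3 _ (isPE_redP p m 1) (hW m hm) (hW' m hm) hz3' ?_
      intro s hs'
      rw [← hzm]
      exact (key_iff p z s).1 (hs s hs')
  · -- case 3
    push Not at h2
    have : Finite (Additive (Gamma0 N) →+ ZMod (p ^ 1)) := hfin N (p ^ 1)
    let φ : Lam N p →+ (Additive (Gamma0 N) →+ ZMod (p ^ 1)) :=
      AddMonoidHom.mk' (fun v => redP p 1 (yL p htr X v).1) (fun a b => by
        rw [map_add]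
        exact redP_add p 1 _ _)
    let Yb : AddSubgroup (Additive (Gamma0 N) →+ ZMod (p ^ 1)) := M.toAddSubgroup.map φ
    have hYb : ∀ a, a ∈ Yb ↔ ∃ v ∈ M, a = Yc p X (redP p 1 v.1) := by
      intro a
      constructor
      · rintro ⟨v, hv, rfl⟩
        exact ⟨v, hv, redP_yL p htr X v 1⟩
      · rintro ⟨v, hv, rfl⟩
        exact ⟨v, hv, redP_yL p htr X v 1⟩
    have hT : ∀ a ∈ Yb, Tc p X a ∈ Yb := by
      intro a ha
      obtain ⟨v, hv, rfl⟩ := (hYb a).1 ha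
      refine (hYb _).2 ⟨wLam p htr X (yL p htr X v), hwM _ (hyM v hv), ?_⟩
      rw [← hTY, redP_yL]
    have hinj : ∀ a ∈ Yb, ∀ b ∈ Yb, Tc p X a = Tc p X b → a = b := by
      intro a ha b hb hab
      obtain ⟨v, hv, hv'⟩ := (hYb _).1 (Yb.sub_mem ha hb)
      by_contra hne
      have h3 : Yc p X (redP p 1 v.1) ≠ 0 := by
        rw [← hv']
        exact sub_ne_zero.2 hne
      apply h2 v hv h3
      rw [← hv', Tc_sub, hab, sub_self]
    obtain ⟨J, hJ, hJ'⟩ := cases_abs Yb (Tc p X) hT hinj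
    refine ⟨M ⊓ (pLam (N := N) p ⊔ M.map (yL p htr X)), inf_le_left, ?_, ?_, ?_, Or.inl ?_⟩
    · intro hle
      have hmem : yL p htr X v0 ∈ M ⊓ (pLam (N := N) p ⊔ M.map (yL p htr X)) :=
        ⟨hyM v0 hv0, Submodule.mem_sup_right (Submodule.mem_map_of_mem hv0)⟩
      have := (mem_pLam p).1 (hle hmem)
      rw [redP_yL] at this
      exact hv0' this
    · rintro g z ⟨hz1, hz2⟩
      exact ⟨hρM g z hz1, stab_sup p M _ _ (hρM g) (hρy g) z hz2⟩
    · rintro x z ⟨hz1, hz2⟩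
      exact ⟨hΘM x z hz1, stab_sup p M _ _ (hΘM x) (hΘy x) z hz2⟩
    · rintro z ⟨_, hz2⟩ s hs
      obtain ⟨m, hm, hzm⟩ := chi_of_mem_sup p htr X M hz2
      rw [key_iff, hzm]
      exact B.g2 _ (isPE_redP p m 1) (hW m hm) (hW' m hm)
        ⟨J, hJ, hJ' _ ((hYb _).2 ⟨m, hm, rfl⟩)⟩ s hs

/-- **OUTPUT.** -/
theorem esOrd (h : Stmt_OrdFin) (htr : Stmt_AL_trace) (htau : Stmt_AL_tau)
    (hinv : Stmt_AL_chr_invol) (hfin : Fermat.Agent.ES.Mid.Stmt_HomFinite) :
    Fermat.Agent.ORD.TR.Stmt_ESOrd := by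
  intro p _ N _ S hp2 hpN hp2N hNS
  obtain ⟨D, X, hB⟩ := h p hp2 N hpN hp2N
  refine ⟨esModule N p D (↑S : Set ℕ) hNS, ?_⟩
  intro P hP M hM0 hsat hst haug
  exact core p htr htau hinv hfin hpN (↑S : Set ℕ) hNS (hB P hP) M hM0 hsat hst haug

end Fermat.Agent.ORD.Fin.L
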