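import Fermat.Agent.ORD.Fin.Interface
import Fermat.Agent.BR.F.FinBR

/-!
# ORD / Fin / X : assembling the finite level package `Stmt_OrdFin`
-/

set_option autoImplicit false

namespace Fermat.Agent.ORD.Fin.XO

open CongruenceSubgroup
open Fermat.Agent.S24 (Qbar FF)
open Fermat.Agent.ES.Mid Fermat.Agent.ES.Mid.GLUE Fermat.Agent.ES.Mid.FIX
open Fermat.Agent.ES.Coh (FinLevelData)
open Fermat.Agent.BR.F (AL InWinf ESHyp Stmt_ALExists Stmt_AL_j Stmt_AL_gal Stmt_AL_kum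
  Stmt_AL_trace Stmt_HeckeU Stmt_CongAlg)
open Fermat.Agent.BR.F.XB (finAct isPE_chr kum_const)

/-- (X) -/
theorem ordFin (h : ESHyp) (hEx : Stmt_ALExists) (hj : Stmt_AL_j)
    (hgal : Stmt_AL_gal) (hkum : Stmt_AL_kum) (htr : Stmt_AL_trace) (hHU : Stmt_HeckeU)
    (hC : Stmt_CongAlg) (hSat : Stmt_Sat) (hG1 : Stmt_FG1) (hG2 : Stmt_FG2) (hG3 : Stmt_FG3) :
    Stmt_OrdFin := by
  intro p _ hp2 N _ hpN hp2N
  obtain ⟨D, hD⟩ := finAct h N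
  obtain ⟨hMul, hInv, hPow, hUn, hRed, hA, hB, hE, hF, hT, hH, hJ, hK, hL, hM⟩ := h
  have hW : ∀ {m : ℕ} [NeZero m] (σ : GQ) {χ : Additive (Gamma0 N) →+ ZMod m}, IsPE χ →
      ∀ {u : FF N}, Kum N m u χ → IsPE (act N m σ χ) ∧ Kum N m (gal N σ u) (act N m σ χ) :=
    fun σ _ hχ _ hu => W hMul hInv hPow hA hB hE σ hχ hu
  have hU : ∀ {m : ℕ} [NeZero m] (σ : GQ) {χ ψ : Additive (Gamma0 N) →+ ZMod m}, IsPE χ →
      ∀ {u : FF N}, Kum N m u χ → Kum N m (gal N σ u) ψ → act N m σ χ = ψ :=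
    fun σ _ _ hχ _ hu hψ => U hMul hInv hPow hUn hA hB hE σ hχ hu hψ
  obtain ⟨X⟩ := hEx N p (pp p).2 hpN hp2N
  obtain ⟨Nr, hN1, hN2, -⟩ := hHU N (pp p) hpN
  refine ⟨D, X, fun A hA' => ?_⟩
  obtain ⟨hC1, hCm, hCi, hC0⟩ := hC N A
  constructor
  · -- winf_zero
    intro m _
    refine ⟨1, ?_, hC1⟩
    have := hPow N m 1 one_ne_zero
    rwa [one_pow] at this
  · -- winf_add
    rintro m _ χ χ' ⟨u, hu, hc⟩ ⟨u', hu', hc'⟩
    exact ⟨u * u', hMul N m _ _ _ _ hu hu', hCm u u' hc hc'⟩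
  · -- inertia
    intro m _ τ hτ χ hχ
    rw [hD]
    obtain ⟨u, hu⟩ := hF N m χ hχ
    have hdu : IsDiv N m u := hB N m u χ hu hχ
    obtain ⟨c, hc, hcong⟩ := hJ N A τ hτ u hdu.1
    refine ⟨_, ?_, hcong⟩
    have := hMul N m _ _ _ _ (kum_const hPow N m hc)
      (hMul N m _ _ _ _ (hW τ hχ hu).2 (hInv N m _ _ hu))
    rwa [zero_add, ← sub_eq_add_neg] at this
  · -- chr_act
    intro m _ σ χ hχ
    rw [hD, hD]
    obtain ⟨u, hu⟩ := hF N m χ hχ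
    refine (hU σ (isPE_chr htr X hχ) (hkum N p X m u χ hu) ?_).symm
    rw [← hgal N p (pp p).2 hpN hp2N X.w (hj N p X) σ u]
    exact hkum N p X m _ _ (hW σ hχ hu).2
  · -- tau_act
    intro m _ σ χ hχ
    rw [hD, hD]
    obtain ⟨u, hu⟩ := hF N m χ hχ
    refine (hU σ (hT N (pp p) _ χ hχ) (hN1 m u χ hu) ?_).symm
    rw [← hN2]
    exact hN1 m _ _ (hW σ hχ hu).2
  · -- sat
    intro k hk χ hχ h1
    exact hSat p A hA' N k hk χ hχ h1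
  · -- g1
    intro χ hχ h1 h2 h3 h4 s hs
    rw [hD]
    exact hG1 p hp2 N hpN hp2N X A hA' χ hχ h1 h2 h3 h4 s hs
  · -- g2
    intro χ hχ h1 h2 h3 s hs
    rw [hD]
    exact hG2 p hp2 N hpN hp2N X A hA' χ hχ h1 h2 h3 s hs
  · -- g3
    intro χ hχ h1 h2 h3 h4
    refine hG3 p hp2 N hpN hp2N X A hA' χ hχ h1 h2 h3 ?_
    intro s hs
    rw [← hD]
    exact h4 s hs

end Fermat.Agent.ORD.Fin.XO
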