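import Fermat.Agent.ORD.Fin.Interface

/-!
# ORD / Fin : (FN-SAT) saturation of `W_∞` on characters
-/

set_option autoImplicit false

namespace Fermat.Agent.ORD.Fin

open CongruenceSubgroup
open Fermat.Agent.S24 (Qbar FF)
open Fermat.Agent.ES.Mid
open Fermat.Agent.BR.F (InWinf)

/-- **(FN-SAT)**. -/
theorem stmt_Sat (h : BR.F.ESHyp) (hR : Stmt_CongRoot) : Stmt_Sat := by
  obtain ⟨hMul, hInv, hPow, hUn, hRed, hA, hB, hE, hF, hT, hH, hJ, hK, hL, hM⟩ := h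
  intro p hp A hA' N _ k hd χ hχ hin
  obtain ⟨u', hu', hc⟩ := hin
  obtain ⟨U, hU⟩ := hF N (p ^ (k + 1)) χ hχ
  have hU0 : U ≠ 0 := (hB N _ U χ hU hχ).1
  have hu'0 : u' ≠ 0 := (hB N _ u' _ hu' (GLUE.isPE_nsmul hχ _)).1
  have hUk : U ^ (p ^ k) ≠ 0 := pow_ne_zero _ hU0
  have h1 := GLUE.kum_pow hMul hPow hU (p ^ k)
  have h2 := hMul N _ _ _ _ _ hu' (hInv N _ _ _ h1)
  rw [add_neg_cancel] at h2
  obtain ⟨f, hf⟩ := hE N _ _ h2
  have hf0 : f ≠ 0 := by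
    rintro rfl
    rw [zero_pow (NeZero.ne _)] at hf
    exact mul_ne_zero hu'0 (inv_ne_zero hUk) hf.symm
  have hz : (U * f ^ p) ^ (p ^ k) = u' := by
    rw [mul_pow, ← pow_mul, ← pow_succ', hf, mul_comm u', mul_inv_cancel_left₀ hUk]
  refine ⟨U * f ^ p, ?_, hR p hp.1 A hA' N _ k (by rw [hz]; exact hc)⟩
  have h3 := hRed N (p ^ 1) (p ^ (k + 1)) hd U χ hU
  have h4 : Kum N (p ^ 1) (f ^ p) 0 := by
    have h4' := hPow N (p ^ 1) f hf0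
    have e : f ^ p ^ 1 = f ^ p := by rw [pow_one]
    rwa [e] at h4'
  have h5 := hMul N (p ^ 1) _ _ _ _ h3 h4
  rwa [add_zero] at h5

end Fermat.Agent.ORD.Fin
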