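import Fermat.Agent.BR.F.Final
import Fermat.Agent.ORD.D2.All
import Fermat.Agent.ORD.NM.All
import Fermat.Agent.ORD.Fin.CongRoot
import Fermat.Agent.ORD.Fin.SatChar
import Fermat.Agent.ORD.Fin.HeckeUS
import Fermat.Agent.ORD.Fin.FG1
import Fermat.Agent.ORD.Fin.FG2
import Fermat.Agent.ORD.Fin.FG3
import Fermat.Agent.ORD.Fin.OrdFin
import Fermat.Agent.ORD.Fin.LamOrd

/-!
# ORD / Fin : assembly.  `TR.Stmt_ESOrd`, unconditionally.
-/

set_option autoImplicit false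

namespace Fermat.Agent.ORD.Fin.ALL

open Fermat.Agent.BR.F

theorem esHyp : ESHyp := BR.F.ALL.esHyp_of Fermat.Agent.INJ.Inst.stmt_ClaimK

theorem al_j : Stmt_AL_j := W3.al_j W2.alAlg

theorem fg1 : Stmt_FG1 :=
  stmt_FG1 esHyp (NM.G1_of D2.d2ff) stmt_HeckeUS stmt_ALBridge al_j W4.al_kum W1.al_trace
    NM.stmt_InWOfCong

theorem fg2 : Stmt_FG2 :=
  stmt_FG2 esHyp NM.all_G2 stmt_HeckeUS stmt_ALBridge al_j W4.al_kum W1.al_trace
    NM.stmt_InWOfCong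

theorem fg3 : Stmt_FG3 :=
  stmt_FG3 esHyp NM.all_G3 stmt_HeckeUS stmt_ALBridge al_j W4.al_kum W1.al_trace
    NM.stmt_InWOfCong

theorem ordFin : Stmt_OrdFin :=
  XO.ordFin esHyp (W3.alExists W1.alMat W1.alConj W2.alAlg) al_j W3.al_gal W4.al_kum W1.al_trace
    BR.F.ALL.heckeU C.congAlg (stmt_Sat esHyp stmt_CongRoot) fg1 fg2 fg3

/-- **OUTPUT of ORD / Fin**, unconditional. -/
theorem esOrd : TR.Stmt_ESOrd :=
  L.esOrd ordFin W1.al_trace (W5.al_tau (W5.alCoset W1.alConj)) W1.al_chr_invol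
    Fermat.Agent.ES.Mid.LM.homFinite

end Fermat.Agent.ORD.Fin.ALL
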