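import Mathlib

/-!
# ORD / Fin / Cases : the abstract case analysis behind `OrdClause` (helper79)

`Λ` a finitely generated `ℤ_p`-module, `w n : End Λ` with `w² = 1` (NOT assumed to commute),
`e = 1 + n w`, `T = w + n = e w`, `M ⊆ Λ` a nonzero saturated submodule stable under `w`, `n`,
`Om : Λ → Prop` a property depending only on the class modulo `p Λ`.
-/

set_option autoImplicit false

namespace Fermat.Agent.ORD.Fin

variable {p : ℕ} [hp : Fact p.Prime]

/-- `p Λ` (same expression as `ORD.TR.pTop`). -/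
noncomputable abbrev pL (p : ℕ) [Fact p.Prime] (Λ : Type) [AddCommGroup Λ] [Module ℤ_[p] Λ] :
    Submodule ℤ_[p] Λ :=
  (Ideal.span {(p : ℤ_[p])}) • (⊤ : Submodule ℤ_[p] Λ)

section

variable {Λ : Type} [AddCommGroup Λ] [Module ℤ_[p] Λ]

theorem Cases_mem_pL (v : Λ) : v ∈ pL p Λ ↔ ∃ t : Λ, v = (p : ℤ_[p]) • t := by
  rw [pL, Submodule.ideal_span_singleton_smul, Submodule.mem_smul_pointwise_iff_exists]
  constructor
  · rintro ⟨t, -, rfl⟩
    exact ⟨t, rfl⟩
  · rintro ⟨t, rfl⟩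
    exact ⟨t, trivial, rfl⟩

theorem Cases_map_pL (f : Module.End ℤ_[p] Λ) {v : Λ} (hv : v ∈ pL p Λ) : f v ∈ pL p Λ := by
  obtain ⟨t, rfl⟩ := (Cases_mem_pL v).1 hv
  exact (Cases_mem_pL _).2 ⟨f t, map_smul f _ t⟩

theorem Cases_finite_quot [Module.Finite ℤ_[p] Λ] : Finite (Λ ⧸ pL p Λ) := by
  have : Finite (ℤ_[p] ⧸ Ideal.span {(p : ℤ_[p])}) := by
    rw [← PadicInt.maximalIdeal_eq_span_p, ← PadicInt.ker_toZMod]
    exact Finite.of_equiv _
      (RingHom.quotientKerEquivOfSurjective (f := PadicInt.toZMod (p := p))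
        (ZMod.ringHom_surjective _)).toEquiv.symm
  have : Finite (Λ ⧸ (⊤ : Submodule ℤ_[p] Λ)) := inferInstance
  exact Submodule.finite_quotient_smul (Ideal.span {(p : ℤ_[p])}) Module.Finite.fg_top

/-- a nonzero saturated submodule is not contained in `p Λ`. -/
theorem Cases_not_le [Module.Finite ℤ_[p] Λ] (M : Submodule ℤ_[p] Λ) (hM : M ≠ ⊥)
    (hsat : ∀ v : Λ, (p : ℤ_[p]) • v ∈ M → v ∈ M) : ¬ M ≤ pL p Λ := by
  intro hle
  apply hM
  have key : ∀ k : ℕ, ∀ v ∈ M, v ∈ (Ideal.span {(p : ℤ_[p])}) ^ k • (⊤ : Submodule ℤ_[p] Λ) := by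
    intro k
    induction k with
    | zero => intro v _; simp
    | succ k ih =>
      intro v hv
      obtain ⟨t, rfl⟩ := (Cases_mem_pL v).1 (hle hv)
      have ht := ih t (hsat t hv)
      rw [pow_succ', mul_smul]
      exact Submodule.smul_mem_smul (Ideal.mem_span_singleton_self _) ht
  have hI : Ideal.span {(p : ℤ_[p])} ≠ ⊤ := by
    rw [← PadicInt.maximalIdeal_eq_span_p]
    exact Ideal.IsPrime.ne_top'
  have hbot := Ideal.iInf_pow_smul_eq_bot_of_isLocalRing (M := Λ) (Ideal.span {(p : ℤ_[p])}) hI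
  rw [eq_bot_iff]
  intro v hv
  rw [← hbot, Submodule.mem_iInf]
  exact fun k => key k v hv

end

/-- **The abstract case analysis.** -/
theorem cases_abs (Λ : Type) [AddCommGroup Λ] [Module ℤ_[p] Λ] [Module.Finite ℤ_[p] Λ]
    (w n : Module.End ℤ_[p] Λ) (Om : Λ → Prop) (M : Submodule ℤ_[p] Λ)
    (hww : ∀ v, w (w v) = v) (hM : M ≠ ⊥) (hsat : ∀ v : Λ, (p : ℤ_[p]) • v ∈ M → v ∈ M)
    (hwM : ∀ v ∈ M, w v ∈ M) (hnM : ∀ v ∈ M, n v ∈ M)
    (hOm : ∀ z z' : Λ, Om z → z' - z ∈ pL p Λ → Om z')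
    (h1 : ∀ u ∈ M, u + n (w u) ∈ pL p Λ → w u + n u ∈ pL p Λ → Om u)
    (h2 : ∀ x ∈ M, ∀ J : ℕ, 0 < J →
      (fun v => w v + n v)^[J] (x + n (w x)) - (x + n (w x)) ∈ pL p Λ → Om (x + n (w x)))
    (h3 : ∀ x ∈ M, w (x + n (w x)) + n (x + n (w x)) ∈ pL p Λ → Om (x + n (w x)) →
      x + n (w x) ∈ pL p Λ) :
    ∃ Z : Submodule ℤ_[p] Λ, Z ≤ M ∧ ¬ Z ≤ pL p Λ ∧
      (∀ f : Module.End ℤ_[p] Λ, (∀ v, f (w v) = w (f v)) → (∀ v, f (n v) = n (f v)) →
        (∀ v ∈ M, f v ∈ M) → ∀ z ∈ Z, f z ∈ Z) ∧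
      ((∀ z ∈ Z, Om z) ∨ (∀ z ∈ Z, Om z → z ∈ pL p Λ)) := by
  classical
  set e : Module.End ℤ_[p] Λ := 1 + n * w with he
  set T : Module.End ℤ_[p] Λ := w + n with hT
  have e_apply : ∀ v, e v = v + n (w v) := fun v => rfl
  have T_apply : ∀ v, T v = w v + n v := fun v => rfl
  have hTfun : (fun v => w v + n v) = T := rfl
  have Te : ∀ v, T v = e (w v) := fun v => by rw [T_apply, e_apply, hww]
  have heM : ∀ v ∈ M, e v ∈ M := fun v hv => M.add_mem hv (hnM _ (hwM _ hv))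
  have hTM : ∀ v ∈ M, T v ∈ M := fun v hv => M.add_mem (hwM _ hv) (hnM _ hv)
  by_cases hc1 : M.map e ≤ pL p Λ
  · -- case 1
    refine ⟨M, le_rfl, Cases_not_le M hM hsat, fun f _ _ hf z hz => hf z hz, Or.inl ?_⟩
    intro u hu
    refine h1 u hu (hc1 ⟨u, hu, rfl⟩) ?_
    have := hc1 ⟨w u, hwM u hu, rfl⟩
    rwa [← Te] at this
  -- the submodule `Y`
  set Y : Submodule ℤ_[p] Λ := M ⊓ (M.map e ⊔ pL p Λ) with hY
  have memY : ∀ v, v ∈ Y ↔ v ∈ M ∧ ∃ x ∈ M, v - e x ∈ pL p Λ := by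
    intro v
    rw [hY, Submodule.mem_inf, Submodule.mem_sup]
    refine and_congr_right fun _ => ?_
    constructor
    · rintro ⟨_, ⟨x, hx, rfl⟩, b, hb, rfl⟩
      exact ⟨x, hx, by simpa using hb⟩
    · rintro ⟨x, hx, hb⟩
      exact ⟨e x, ⟨x, hx, rfl⟩, v - e x, hb, by abel⟩
  have hYnot : ¬ Y ≤ pL p Λ := by
    intro hle
    apply hc1
    rintro _ ⟨x, hx, rfl⟩
    exact hle ((memY _).2 ⟨heM x hx, x, hx, by simp⟩)
  have hTY : ∀ v ∈ Y, T v ∈ Y := by
    intro v hv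
    have hvM := ((memY v).1 hv).1
    exact (memY _).2 ⟨hTM v hvM, w v, hwM v hvM, by rw [Te]; simp⟩
  have hstabY : ∀ f : Module.End ℤ_[p] Λ, (∀ v, f (w v) = w (f v)) → (∀ v, f (n v) = n (f v)) →
      (∀ v ∈ M, f v ∈ M) → ∀ z ∈ Y, f z ∈ Y := by
    intro f hfw hfn hfM z hz
    obtain ⟨hzM, x, hx, hb⟩ := (memY z).1 hz
    refine (memY _).2 ⟨hfM z hzM, f x, hfM x hx, ?_⟩
    have : f z - e (f x) = f (z - e x) := by
      rw [map_sub, e_apply, e_apply, map_add, hfn, hfw]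
    rw [this]
    exact Cases_map_pL f hb
  by_cases hc2 : ∃ v ∈ Y, v ∉ pL p Λ ∧ T v ∈ pL p Λ
  · -- case 2a
    obtain ⟨v, hvY, hvp, hTv⟩ := hc2
    refine ⟨Y ⊓ (pL p Λ).comap T, fun z hz => ((memY z).1 hz.1).1,
      fun hle => hvp (hle ⟨hvY, hTv⟩), ?_, Or.inr ?_⟩
    · intro f hfw hfn hfM z hz
      refine ⟨hstabY f hfw hfn hfM z hz.1, ?_⟩
      show T (f z) ∈ pL p Λ
      have : T (f z) = f (T z) := by rw [T_apply, T_apply, map_add, hfw, hfn]
      rw [this]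
      exact Cases_map_pL f hz.2
    · intro z hz hOz
      obtain ⟨-, x, hx, hb⟩ := (memY z).1 hz.1
      have hTz : T z ∈ pL p Λ := hz.2
      have h4 : T (e x) ∈ pL p Λ := by
        have : T (e x) = T z - T (z - e x) := by rw [map_sub]; abel
        rw [this]
        exact (pL p Λ).sub_mem hTz (Cases_map_pL T hb)
      have h5 : Om (e x) := hOm z (e x) hOz (by
        have : e x - z = -(z - e x) := by abel
        rw [this]
        exact (pL p Λ).neg_mem hb)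
      have h6 := h3 x hx h4 h5
      have : z = (z - e x) + e x := by abel
      rw [this]
      exact (pL p Λ).add_mem hb h6
  · -- case 2b
    push Not at hc2
    have hinj : ∀ v ∈ Y, T v ∈ pL p Λ → v ∈ pL p Λ := fun v hv hTv => by
      by_contra hvp
      exact hc2 v hv hvp hTv
    have hTiY : ∀ (i : ℕ), ∀ v ∈ Y, (T ^ i) v ∈ Y := by
      intro i
      induction i with
      | zero => intro v hv; simpa using hv
      | succ i ih =>
        intro v hv
        rw [pow_succ', Module.End.mul_apply]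
        exact hTY _ (ih v hv)
    have hinj' : ∀ (i : ℕ), ∀ v ∈ Y, (T ^ i) v ∈ pL p Λ → v ∈ pL p Λ := by
      intro i
      induction i with
      | zero => intro v _ h; simpa using h
      | succ i ih =>
        intro v hv h
        rw [pow_succ', Module.End.mul_apply] at h
        exact ih v hv (hinj _ (hTiY i v hv) h)
    refine ⟨Y, fun z hz => ((memY z).1 hz).1, hYnot, hstabY, Or.inl ?_⟩
    intro z hz
    obtain ⟨-, x, hx, hb⟩ := (memY z).1 hz
    have := Cases_finite_quot (p := p) (Λ := Λ)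
    obtain ⟨i, j, hij, hEq⟩ := Finite.exists_ne_map_eq_of_infinite
      (fun k : ℕ => (Submodule.Quotient.mk ((T ^ k) z) : Λ ⧸ pL p Λ))
    have hper : ∃ J : ℕ, 0 < J ∧ (T ^ J) z - z ∈ pL p Λ := by
      have aux : ∀ i j : ℕ, i < j → (T ^ i) z - (T ^ j) z ∈ pL p Λ →
          ∃ J : ℕ, 0 < J ∧ (T ^ J) z - z ∈ pL p Λ := by
        intro i j hlt h
        refine ⟨j - i, Nat.sub_pos_of_lt hlt, ?_⟩
        have h7 : (T ^ i) (z - (T ^ (j - i)) z) ∈ pL p Λ := by
          rw [map_sub, ← Module.End.mul_apply, ← pow_add, Nat.add_sub_cancel' hlt.le]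
          exact h
        have h8 := hinj' i _ (Y.sub_mem hz (hTiY _ z hz)) h7
        have : (T ^ (j - i)) z - z = -(z - (T ^ (j - i)) z) := by abel
        rw [this]
        exact (pL p Λ).neg_mem h8
      have hEq' : (T ^ i) z - (T ^ j) z ∈ pL p Λ := (Submodule.Quotient.eq _).1 hEq
      rcases lt_or_gt_of_ne hij with hlt | hlt
      · exact aux i j hlt hEq'
      · refine aux j i hlt ?_
        have : (T ^ j) z - (T ^ i) z = -((T ^ i) z - (T ^ j) z) := by abel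
        rw [this]
        exact (pL p Λ).neg_mem hEq'
    obtain ⟨J, hJ, hJz⟩ := hper
    have h9 : (T ^ J) (e x) - e x ∈ pL p Λ := by
      have : (T ^ J) (e x) - e x = ((T ^ J) z - z) - ((T ^ J) (z - e x) - (z - e x)) := by
        rw [map_sub]; abel
      rw [this]
      exact (pL p Λ).sub_mem hJz ((pL p Λ).sub_mem (Cases_map_pL _ hb) hb)
    have h10 : Om (e x) := by
      refine h2 x hx J hJ ?_
      rw [hTfun, ← Module.End.pow_apply]
      exact h9
    exact hOm (e x) z h10 hb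

end Fermat.Agent.ORD.Fin
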