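import Fermat.Agent.BR.F.LamBR
import Fermat.Agent.ORD.TR.Interface
import Fermat.Agent.ORD.NM.Interface

/-!
# ORD / Fin : from the per-element contract `NM.Stmt_G1, G2, G3` to `TR.Stmt_ESOrd`
(architect: helper22)

`p` odd, `p ∥ N`.  `X : AL N p` Atkin-Lehner data at `p` (`BR/F`), `n = tau N p` (`= U_p`) and
`w = X.chr` on characters `Γ₀(N) → ℤ/p`.  `Yc = 1 + n w`, `Tc = w + n`.

* block X (finite level) : `Stmt_CongRoot`, `Stmt_Sat`, `Stmt_FG1`, `Stmt_FG2`, `Stmt_FG3`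
  (characters with values in `ZMod (p ^ 1)`), assembled in `Stmt_OrdFin`;
* block L (`ℤ_p`-level) : `Stmt_OrdFin → TR.Stmt_ESOrd`.

Every package proves `theorem stmt_xxx (h.. : Stmt_..) : Stmt_xxx` in its own NEW file
`Fermat/Agent/ORD/Fin/<Name>.lean` importing this one.
-/

set_option autoImplicit false

namespace Fermat.Agent.ORD.Fin

open CongruenceSubgroup
open Fermat.Agent.S24 (Qbar FF)
open Fermat.Agent.ES.Mid
open Fermat.Agent.ES.Coh (FinLevelData)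
open Fermat.Agent.ES.RepGalois (eps IsCyc)
open Fermat.Agent.BR.F (AL InWinf ClassCong)

/-- `p` as an element of `Nat.Primes`. -/
abbrev pp (p : ℕ) [hp : Fact p.Prime] : Nat.Primes := ⟨p, hp.1⟩

/-- the cyclotomic character mod `p`, as a natural number. -/
noncomputable def cy (p : ℕ) [Fact p.Prime] (s : GQ) : ℕ :=
  (PadicInt.toZModPow 1 ((eps p s : ℤ_[p]ˣ) : ℤ_[p])).val

section Char

variable {N : ℕ} [NeZero N] (p : ℕ) [Fact p.Prime] (X : AL N p) {m : ℕ}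

/-- `1 + n w` on characters. -/
noncomputable def Yc (χ : Additive (Gamma0 N) →+ ZMod m) : Additive (Gamma0 N) →+ ZMod m :=
  χ + tau N (pp p) (ZMod m) (X.chr χ)

/-- `w + n` on characters. -/
noncomputable def Tc (χ : Additive (Gamma0 N) →+ ZMod m) : Additive (Gamma0 N) →+ ZMod m :=
  X.chr χ + tau N (pp p) (ZMod m) χ

end Char

/-! ## Block X -/

/-- (FN-ROOT) characteristic `p`: `z ^ (p ^ k) ≡ 1` implies `z ≡ 1`. -/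
def Stmt_CongRoot : Prop :=
  ∀ (p : ℕ), p.Prime → ∀ A : ValuationSubring Qbar, A.LiesOverPrime p →
    ∀ (N : ℕ) [NeZero N] (z : FF N) (k : ℕ), CongOne N A (z ^ (p ^ k)) → CongOne N A z

/-- (FN-SAT) saturation of `W_∞`. -/
def Stmt_Sat : Prop :=
  ∀ (p : ℕ) [Fact p.Prime] (A : ValuationSubring Qbar), A.LiesOverPrime p →
    ∀ (N : ℕ) [NeZero N] (k : ℕ) (h : p ^ 1 ∣ p ^ (k + 1))
      (χ : Additive (Gamma0 N) →+ ZMod (p ^ (k + 1))), IsPE χ →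
      InWinf N (p ^ (k + 1)) A ((p ^ k) • χ) → InWinf N (p ^ 1) A (redChar h χ)

/-- (FN-US) the operator `N_p` with its `q`-expansion. -/
def Stmt_HeckeUS : Prop :=
  ∀ (N : ℕ) [NeZero N] (p : ℕ) [NeZero p] (hp : p.Prime), p ∣ N →
    ∀ ζ : Qbarˣ, IsPrimitiveRoot ζ p → ∃ n : FF N → FF N,
      (∀ u, (n u : LaurentSeries Qbar) = Dep.formalU p ζ (u : LaurentSeries Qbar)) ∧
      (∀ (m : ℕ) [NeZero m] (u : FF N) (χ : Additive (Gamma0 N) →+ ZMod m),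
        Kum N m u χ → Kum N m (n u) (tau N ⟨p, hp⟩ (ZMod m) χ))

/-- (bridge) `BR.F.IsAL → BR.Inst.IsAL` (`BR/GMid/Bridge.lean : isAL_of_isAL`). -/
def Stmt_ALBridge : Prop :=
  ∀ (M r : ℕ) [NeZero (M * r)], r.Prime → ∀ w : FF (M * r) ≃ₐ[Qbar] FF (M * r),
    BR.F.IsAL (M * r) r w → BR.Inst.IsAL M r w

/-- (FN-G1) -/
def Stmt_FG1 : Prop :=
  ∀ (p : ℕ) [Fact p.Prime], p ≠ 2 → ∀ (N : ℕ) [NeZero N], p ∣ N → ¬ p ^ 2 ∣ N →
  ∀ (X : AL N p) (A : ValuationSubring Qbar), A.LiesOverPrime p →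
  ∀ χ : Additive (Gamma0 N) →+ ZMod (p ^ 1), IsPE χ →
    InWinf N (p ^ 1) A χ → InWinf N (p ^ 1) A (X.chr χ) → Yc p X χ = 0 → Tc p X χ = 0 →
    ∀ s ∈ A.inertiaSubgroupIn ℚ, GLUE.act N (p ^ 1) s χ = cy p s • χ

/-- (FN-G2) -/
def Stmt_FG2 : Prop :=
  ∀ (p : ℕ) [Fact p.Prime], p ≠ 2 → ∀ (N : ℕ) [NeZero N], p ∣ N → ¬ p ^ 2 ∣ N →
  ∀ (X : AL N p) (A : ValuationSubring Qbar), A.LiesOverPrime p →
  ∀ χ : Additive (Gamma0 N) →+ ZMod (p ^ 1), IsPE χ →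
    InWinf N (p ^ 1) A χ → InWinf N (p ^ 1) A (X.chr χ) →
    (∃ J : ℕ, 0 < J ∧ (Tc p X)^[J] (Yc p X χ) = Yc p X χ) →
    ∀ s ∈ A.inertiaSubgroupIn ℚ, GLUE.act N (p ^ 1) s (Yc p X χ) = cy p s • Yc p X χ

/-- (FN-G3) -/
def Stmt_FG3 : Prop :=
  ∀ (p : ℕ) [Fact p.Prime], p ≠ 2 → ∀ (N : ℕ) [NeZero N], p ∣ N → ¬ p ^ 2 ∣ N →
  ∀ (X : AL N p) (A : ValuationSubring Qbar), A.LiesOverPrime p →
  ∀ χ : Additive (Gamma0 N) →+ ZMod (p ^ 1), IsPE χ →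
    InWinf N (p ^ 1) A χ → InWinf N (p ^ 1) A (X.chr χ) → Tc p X (Yc p X χ) = 0 →
    (∀ s ∈ A.inertiaSubgroupIn ℚ, GLUE.act N (p ^ 1) s (Yc p X χ) = cy p s • Yc p X χ) →
    Yc p X χ = 0

/-- The supplement at `p ∥ N` to a `FinLevelData`. -/
structure OrdFin {N : ℕ} [NeZero N] (D : FinLevelData N) (p : ℕ) [Fact p.Prime] (X : AL N p)
    (A : ValuationSubring Qbar) : Prop where
  winf_zero : ∀ (m : ℕ) [NeZero m], InWinf N m A 0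
  winf_add : ∀ (m : ℕ) [NeZero m] (χ χ' : Additive (Gamma0 N) →+ ZMod m),
    InWinf N m A χ → InWinf N m A χ' → InWinf N m A (χ + χ')
  inertia : ∀ (m : ℕ) [NeZero m], ∀ τ ∈ A.inertiaSubgroupIn ℚ,
    ∀ χ : Additive (Gamma0 N) →+ ZMod m, IsPE χ → InWinf N m A (D.act m τ χ - χ)
  chr_act : ∀ (m : ℕ) [NeZero m] (σ : GQ) (χ : Additive (Gamma0 N) →+ ZMod m), IsPE χ →
    X.chr (D.act m σ χ) = D.act m σ (X.chr χ)
  tau_act : ∀ (m : ℕ) [NeZero m] (σ : GQ) (χ : Additive (Gamma0 N) →+ ZMod m), IsPE χ →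
    tau N (pp p) (ZMod m) (D.act m σ χ) = D.act m σ (tau N (pp p) (ZMod m) χ)
  sat : ∀ (k : ℕ) (h : p ^ 1 ∣ p ^ (k + 1)) (χ : Additive (Gamma0 N) →+ ZMod (p ^ (k + 1))),
    IsPE χ → InWinf N (p ^ (k + 1)) A ((p ^ k) • χ) → InWinf N (p ^ 1) A (redChar h χ)
  g1 : ∀ χ : Additive (Gamma0 N) →+ ZMod (p ^ 1), IsPE χ →
    InWinf N (p ^ 1) A χ → InWinf N (p ^ 1) A (X.chr χ) → Yc p X χ = 0 → Tc p X χ = 0 →
    ∀ s ∈ A.inertiaSubgroupIn ℚ, D.act (p ^ 1) s χ = cy p s • χ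
  g2 : ∀ χ : Additive (Gamma0 N) →+ ZMod (p ^ 1), IsPE χ →
    InWinf N (p ^ 1) A χ → InWinf N (p ^ 1) A (X.chr χ) →
    (∃ J : ℕ, 0 < J ∧ (Tc p X)^[J] (Yc p X χ) = Yc p X χ) →
    ∀ s ∈ A.inertiaSubgroupIn ℚ, D.act (p ^ 1) s (Yc p X χ) = cy p s • Yc p X χ
  g3 : ∀ χ : Additive (Gamma0 N) →+ ZMod (p ^ 1), IsPE χ →
    InWinf N (p ^ 1) A χ → InWinf N (p ^ 1) A (X.chr χ) → Tc p X (Yc p X χ) = 0 →
    (∀ s ∈ A.inertiaSubgroupIn ℚ, D.act (p ^ 1) s (Yc p X χ) = cy p s • Yc p X χ) →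
    Yc p X χ = 0

/-- (X) finite level output. -/
def Stmt_OrdFin : Prop :=
  ∀ (p : ℕ) [Fact p.Prime], p ≠ 2 → ∀ (N : ℕ) [NeZero N], p ∣ N → ¬ p ^ 2 ∣ N →
    ∃ (D : FinLevelData N) (X : AL N p),
      ∀ A : ValuationSubring Qbar, A.LiesOverPrime p → OrdFin D p X A

end Fermat.Agent.ORD.Fin
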