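import Fermat.Agent.ORD.Fin.Interface
import Fermat.Agent.ORD.Fin.Cases

/-!
# ORD / Fin / LamOrdB : `Stmt_OrdFin → TR.Stmt_ESOrd` via `cases_abs`  (helper11)
-/

set_option autoImplicit false
set_option linter.unusedSectionVars false

namespace Fermat.Agent.ORD.Fin.LB

open CongruenceSubgroup CuspForm
open Fermat.Agent.S24 (Qbar FF)
open Fermat.Agent.S16.HH
open Fermat.Agent.ES.Mid
open Fermat.Agent.ES.Coh
open Fermat.Agent.ES.RepGalois (eps IsCyc)
open Fermat.Agent.BR.F (AL InWinf ClassCong Stmt_AL_trace Stmt_AL_tau Stmt_AL_chr_invol)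
open Fermat.Agent.BR.F.L

variable {N : ℕ} [NeZero N] (p : ℕ) [hp : Fact p.Prime]

theorem exists_smul_of_redP (n : ℕ) (χ : Lam N p) (h1 : redP p n χ.1 = 0) :
    ∃ w : Lam N p, χ = (p : ℤ_[p]) ^ n • w := by
  obtain ⟨a, ha⟩ := (parEquiv N ℤ_[p] ℤ_[p]).surjective χ
  have h2 : ∀ i, ∃ d : ℤ_[p], a i = (p : ℤ_[p]) ^ n * d := fun i => by
    classical
    apply exists_eq_pow_smul_of_redP_eq_zero
    obtain ⟨γ, hγ⟩ := univ_surjective N (Pi.single i 1)
    have h3 : χ.1 γ = a i := by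
      rw [← ha, parEquiv_apply, mkHom_apply, hγ]
      simp [Pi.single_apply, ite_smul]
    rw [← h3, ← redP_apply, h1]
    rfl
  choose d hd using h2
  refine ⟨parEquiv N ℤ_[p] ℤ_[p] d, ?_⟩
  rw [← ha, ← map_smul]
  congr 1
  funext i
  rw [hd i]
  rfl

theorem mem_pL_iff (χ : Lam N p) : χ ∈ pL p (Lam N p) ↔ redP p 1 χ.1 = 0 := by
  rw [Cases_mem_pL]
  constructor
  · rintro ⟨t, rfl⟩
    ext x
    show PadicInt.toZModPow 1 ((p : ℤ_[p]) * t.1 x) = 0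
    rw [map_mul, map_natCast]
    have : ((p : ℕ) : ZMod (p ^ 1)) = 0 := by
      rw [ZMod.natCast_eq_zero_iff, pow_one]
    rw [this, zero_mul]
  · intro h
    obtain ⟨w, hw⟩ := exists_smul_of_redP p 1 χ h
    exact ⟨w, by rw [hw, pow_one]⟩

section Main

variable {D : FinLevelData N} {X : AL N p} {A : ValuationSubring Qbar}

theorem winf_nsmul (B : OrdFin D p X A) (m : ℕ) [NeZero m]
    (χ : Additive (Gamma0 N) →+ ZMod m) (h : InWinf N m A χ) (k : ℕ) : InWinf N m A (k • χ) := by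
  induction k with
  | zero => rw [zero_smul]; exact B.winf_zero m
  | succ k ih => rw [succ_nsmul]; exact B.winf_add m _ _ ih h

/-- `I_aug Λ`. -/
noncomputable def aug (D : FinLevelData N) (A : ValuationSubring Qbar) :
    Submodule ℤ_[p] (Lam N p) :=
  Submodule.span ℤ_[p] {x | ∃ s ∈ A.inertiaSubgroupIn ℚ, ∃ w : Lam N p, x = rho D p s w - w}

theorem aug_winf (B : OrdFin D p X A) (y : Lam N p) (hy : y ∈ aug p D A) (n : ℕ) :
    InWinf N (p ^ n) A (redP p n y.1) := by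
  induction hy using Submodule.span_induction with
  | mem x hx =>
    obtain ⟨s, hs, w, rfl⟩ := hx
    rw [redP_sub', redP_rho]
    exact B.inertia _ s hs _ (isPE_redP p w n)
  | zero =>
    have : redP p n (0 : Lam N p).1 = 0 := by ext x; simp [redP_apply]
    rw [this]; exact B.winf_zero _
  | add x y _ _ hx hy =>
    show InWinf N (p ^ n) A (redP p n (x.1 + y.1))
    rw [redP_add]; exact B.winf_add _ _ _ hx hy
  | smul c x _ hx =>
    show InWinf N (p ^ n) A (redP p n (c • x.1))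
    rw [redP_smul_eq_nsmul]; exact winf_nsmul p B _ _ hx _

theorem winf_of_sat (B : OrdFin D p X A) (v : Lam N p) (k : ℕ)
    (hv : (p : ℤ_[p]) ^ k • v ∈ aug p D A) : InWinf N (p ^ 1) A (redP p 1 v.1) := by
  have h1 := aug_winf p B _ hv (k + 1)
  have h2 : redP p (k + 1) ((p : ℤ_[p]) ^ k • v).1 = (p ^ k) • redP p (k + 1) v.1 := by
    have : ((p : ℤ_[p]) ^ k • v).1 = (p ^ k : ℕ) • v.1 := by
      rw [← Nat.cast_pow, Nat.cast_smul_eq_nsmul]; rfl
    rw [this, redP_nsmul]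
  rw [h2] at h1
  have h3 := B.sat k (pow_dvd_pow p (by omega)) _ (isPE_redP p v (k + 1)) h1
  rwa [redChar_redP p 1 (k + 1) (by omega)] at h3

theorem om_iff (s : GQ) (z : Lam N p) :
    rho D p s z - ((eps p s : ℤ_[p]ˣ) : ℤ_[p]) • z ∈ pL p (Lam N p) ↔
      D.act (p ^ 1) s (redP p 1 z.1) = cy p s • redP p 1 z.1 := by
  rw [mem_pL_iff, redP_sub', redP_rho]
  have : redP p 1 (((eps p s : ℤ_[p]ˣ) : ℤ_[p]) • z).1 = cy p s • redP p 1 z.1 :=
    redP_smul_eq_nsmul p 1 _ z.1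
  rw [this, sub_eq_zero]

theorem redP_Y (htr : Stmt_AL_trace) (x : Lam N p) :
    redP p 1 (x + tauLam p (pp p) (wLam p htr X x)).1 = Yc p X (redP p 1 x.1) := by
  show redP p 1 (x.1 + (tauLam p (pp p) (wLam p htr X x)).1) = _
  rw [redP_add, redP_tauLam, redP_wLam]
  rfl

theorem redP_T (htr : Stmt_AL_trace) (x : Lam N p) :
    redP p 1 (wLam p htr X x + tauLam p (pp p) x).1 = Tc p X (redP p 1 x.1) := by
  show redP p 1 ((wLam p htr X x).1 + (tauLam p (pp p) x).1) = _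
  rw [redP_add, redP_tauLam, redP_wLam]
  rfl

theorem redP_iter (htr : Stmt_AL_trace) (J : ℕ) (x : Lam N p) :
    redP p 1 ((fun v => wLam p htr X v + tauLam p (pp p) v)^[J] x).1
      = (Tc p X)^[J] (redP p 1 x.1) := by
  induction J with
  | zero => rfl
  | succ J ih =>
    rw [Function.iterate_succ_apply', Function.iterate_succ_apply', ← ih]
    exact redP_T p htr _

theorem ordClause (htr : Stmt_AL_trace) (htau : Stmt_AL_tau) (hinv : Stmt_AL_chr_invol)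
    (S : Set ℕ) (hNS : ∀ q : ℕ, q.Prime → q ∣ N → q ∈ S) (hpN : p ∣ N)
    (B : OrdFin D p X A) (M : Submodule ℤ_[p] (Lam N p)) (hM : M ≠ ⊥)
    (hsat : ∀ v : Lam N p, (p : ℤ_[p]) • v ∈ M → v ∈ M)
    (hcomm : ∀ f : Module.End ℤ_[p] (Lam N p),
      (∀ x, f * ThetaLam N p S x = ThetaLam N p S x * f) → ∀ v ∈ M, f v ∈ M)
    (hL : ∀ v ∈ M, ∃ n : ℕ, (p : ℤ_[p]) ^ n • v ∈ aug p D A) :
    ∃ Z : Submodule ℤ_[p] (Lam N p), Z ≤ M ∧ ¬ Z ≤ pL p (Lam N p) ∧
      (∀ (g : GQ), ∀ z ∈ Z, rho D p g z ∈ Z) ∧ (∀ x, ∀ z ∈ Z, ThetaLam N p S x z ∈ Z) ∧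
      ((∀ z ∈ Z, ∀ s ∈ A.inertiaSubgroupIn ℚ,
          rho D p s z - ((eps p s : ℤ_[p]ˣ) : ℤ_[p]) • z ∈ pL p (Lam N p)) ∨
       (∀ z ∈ Z, (∀ s ∈ A.inertiaSubgroupIn ℚ,
          rho D p s z - ((eps p s : ℤ_[p]ˣ) : ℤ_[p]) • z ∈ pL p (Lam N p)) →
            z ∈ pL p (Lam N p))) := by
  have hfin : Module.Finite ℤ_[p] (Lam N p) := Module.Finite.of_basis (basisLam N p)
  have hwM : ∀ v ∈ M, wLam p htr X v ∈ M :=
    hcomm _ (fun x => wLam_comm_ThetaLam p htr htau X S hNS x)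
  have hnM : ∀ v ∈ M, tauLam p (pp p) v ∈ M :=
    hcomm _ (fun x => tauLam_comm_ThetaLam p (pp p) hpN S x)
  have hW : ∀ v ∈ M, InWinf N (p ^ 1) A (redP p 1 v.1) := fun v hv => by
    obtain ⟨k, hk⟩ := hL v hv
    exact winf_of_sat p B v k hk
  have hW' : ∀ v ∈ M, InWinf N (p ^ 1) A (X.chr (redP p 1 v.1)) := fun v hv => by
    have := hW (wLam p htr X v) (hwM v hv)
    rwa [redP_wLam] at this
  have hww : ∀ v, wLam p htr X (wLam p htr X v) = v :=
    fun v => Subtype.ext (hinv N p X ℤ_[p] v.1)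
  have hOm : ∀ z z' : Lam N p, (∀ s ∈ A.inertiaSubgroupIn ℚ,
      rho D p s z - ((eps p s : ℤ_[p]ˣ) : ℤ_[p]) • z ∈ pL p (Lam N p)) →
      z' - z ∈ pL p (Lam N p) → (∀ s ∈ A.inertiaSubgroupIn ℚ,
      rho D p s z' - ((eps p s : ℤ_[p]ˣ) : ℤ_[p]) • z' ∈ pL p (Lam N p)) := by
    intro z z' hz hzz' s hs
    rw [om_iff]
    have h1 := (om_iff p s z).1 (hz s hs)
    have h2 : redP p 1 z'.1 = redP p 1 z.1 := by
      have := (mem_pL_iff p _).1 hzz'
      rwa [redP_sub', sub_eq_zero] at this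
    rw [h2, h1]
  have h1 : ∀ u ∈ M, u + tauLam p (pp p) (wLam p htr X u) ∈ pL p (Lam N p) →
      wLam p htr X u + tauLam p (pp p) u ∈ pL p (Lam N p) → (∀ s ∈ A.inertiaSubgroupIn ℚ,
      rho D p s u - ((eps p s : ℤ_[p]ˣ) : ℤ_[p]) • u ∈ pL p (Lam N p)) := by
    intro u hu h1 h2 s hs
    rw [om_iff]
    refine B.g1 _ (isPE_redP p u 1) (hW u hu) (hW' u hu) ?_ ?_ s hs
    · rw [← redP_Y p htr]; exact (mem_pL_iff p _).1 h1
    · rw [← redP_T p htr]; exact (mem_pL_iff p _).1 h2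
  have h2 : ∀ x ∈ M, ∀ J : ℕ, 0 < J →
      (fun v => wLam p htr X v + tauLam p (pp p) v)^[J] (x + tauLam p (pp p) (wLam p htr X x))
        - (x + tauLam p (pp p) (wLam p htr X x)) ∈ pL p (Lam N p) →
      (∀ s ∈ A.inertiaSubgroupIn ℚ,
      rho D p s (x + tauLam p (pp p) (wLam p htr X x))
        - ((eps p s : ℤ_[p]ˣ) : ℤ_[p]) • (x + tauLam p (pp p) (wLam p htr X x))
          ∈ pL p (Lam N p)) := by
    intro x hx J hJ h1 s hs
    rw [om_iff, redP_Y]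
    refine B.g2 _ (isPE_redP p x 1) (hW x hx) (hW' x hx) ⟨J, hJ, ?_⟩ s hs
    have := (mem_pL_iff p _).1 h1
    rwa [redP_sub', sub_eq_zero, redP_iter, redP_Y] at this
  have h3 : ∀ x ∈ M, wLam p htr X (x + tauLam p (pp p) (wLam p htr X x))
        + tauLam p (pp p) (x + tauLam p (pp p) (wLam p htr X x)) ∈ pL p (Lam N p) →
      (∀ s ∈ A.inertiaSubgroupIn ℚ,
      rho D p s (x + tauLam p (pp p) (wLam p htr X x))
        - ((eps p s : ℤ_[p]ˣ) : ℤ_[p]) • (x + tauLam p (pp p) (wLam p htr X x))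
          ∈ pL p (Lam N p)) → x + tauLam p (pp p) (wLam p htr X x) ∈ pL p (Lam N p) := by
    intro x hx h1 h2
    rw [mem_pL_iff, redP_Y]
    refine B.g3 _ (isPE_redP p x 1) (hW x hx) (hW' x hx) ?_ ?_
    · have := (mem_pL_iff p _).1 h1
      rwa [redP_T, redP_Y] at this
    · intro s hs
      have := (om_iff p s _).1 (h2 s hs)
      rwa [redP_Y] at this
  obtain ⟨Z, hZM, hZp, hZf, hcase⟩ := cases_abs (Lam N p) (wLam p htr X) (tauLam p (pp p))
    (fun z => ∀ s ∈ A.inertiaSubgroupIn ℚ,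
      rho D p s z - ((eps p s : ℤ_[p]ˣ) : ℤ_[p]) • z ∈ pL p (Lam N p)) M
    hww hM hsat hwM hnM hOm h1 h2 h3
  refine ⟨Z, hZM, hZp, fun g => hZf (rho D p g) ?_ ?_ ?_, fun x => hZf (ThetaLam N p S x) ?_ ?_ ?_,
    hcase⟩
  · intro χ
    refine lam_ext p fun n => ?_
    rw [redP_rho, redP_wLam, redP_wLam, redP_rho]
    exact (B.chr_act _ g _ (isPE_redP p χ n)).symm
  · intro χ
    refine lam_ext p fun n => ?_
    rw [redP_rho, redP_tauLam, redP_tauLam, redP_rho]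
    exact (B.tau_act _ g _ (isPE_redP p χ n)).symm
  · exact hcomm _ (fun x => rho_comm_ThetaLam N p D S hNS g x)
  · intro v
    exact (LinearMap.congr_fun (wLam_comm_ThetaLam p htr htau X S hNS x) v).symm
  · intro v
    exact (LinearMap.congr_fun (tauLam_comm_ThetaLam p (pp p) hpN S x) v).symm
  · exact hcomm _ (fun y => by rw [← map_mul, ← map_mul, mul_comm])

end Main

/-- **`Stmt_OrdFin → TR.Stmt_ESOrd`.** -/
theorem esOrd_of (h : Stmt_OrdFin) (htr : Stmt_AL_trace) (htau : Stmt_AL_tau)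
    (hinv : Stmt_AL_chr_invol) : TR.Stmt_ESOrd := by
  intro p _ N _ S hp2 hpN hp2N hNS
  obtain ⟨D, X, hB⟩ := h p hp2 N hpN hp2N
  refine ⟨esModule N p D (↑S : Set ℕ) hNS, ?_⟩
  intro P hP M hM hsat hcomm hL
  exact ordClause p htr htau hinv (↑S : Set ℕ) hNS hpN (hB P hP) M hM hsat hcomm hL

end Fermat.Agent.ORD.Fin.LB
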